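import Mathlib

/-!
# Elements of the homology of a cochain complex of modules (package C2 of Program C)

For `K : CochainComplex (ModuleCat k) ℕ` we give an element-level description of Mathlib's
`K.homology n`: the class `Hmk K n z hz` of a cocycle, surjectivity, the criterion for a class to
vanish, linearity, and the descent of linear maps from cocycles to homology.
-/

set_option autoImplicit false

open CategoryTheory

namespace Fermat.Agent.S55.H62

universe v u

variable {k : Type u} [CommRing k] (K : CochainComplex (ModuleCat.{v} k) ℕ)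

/-- A cocycle, as an element of Mathlib's object of cycles. -/
noncomputable def Zmk (n : ℕ) (z : K.X n) (hz : (K.d n (n + 1)).hom z = 0) : K.cycles n :=
  K.cyclesMk z (n + 1) (by simp) (by simpa using hz)

theorem iCycles_Zmk (n : ℕ) (z : K.X n) (hz : (K.d n (n + 1)).hom z = 0) :
    (K.iCycles n).hom (Zmk K n z hz) = z :=
  K.i_cyclesMk _ _ _ _

/-- The class of a cocycle. -/
noncomputable def Hmk (n : ℕ) (z : K.X n) (hz : (K.d n (n + 1)).hom z = 0) : K.homology n :=
  (K.homologyπ n).hom (Zmk K n z hz)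

theorem Hmk_surjective (n : ℕ) (x : K.homology n) :
    ∃ (z : K.X n) (hz : (K.d n (n + 1)).hom z = 0), Hmk K n z hz = x := by
  obtain ⟨y, rfl⟩ := (ModuleCat.epi_iff_surjective (K.homologyπ n)).1 inferInstance x
  refine ⟨(K.iCycles n).hom y, ?_, ?_⟩
  · have := K.iCycles_d n (n + 1)
    exact LinearMap.congr_fun (ModuleCat.hom_ext_iff.mp this) y
  · unfold Hmk
    congr 1
    apply (ModuleCat.mono_iff_injective (K.iCycles n)).1 inferInstance
    exact iCycles_Zmk K n _ _

theorem Hmk_eq_zero_iff_aux (i n : ℕ) (hi : (ComplexShape.up ℕ).prev n = i) (z : K.X n)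
    (hz : (K.d n (n + 1)).hom z = 0) :
    Hmk K n z hz = 0 ↔ ∃ w : K.X i, (K.d i n).hom w = z := by
  have hex : (ShortComplex.mk (K.toCycles i n) (K.homologyπ n) (by simp)).Exact :=
    ShortComplex.exact_of_g_is_cokernel _ (K.homologyIsCokernel i n hi)
  rw [ShortComplex.moduleCat_exact_iff] at hex
  have hinj := (ModuleCat.mono_iff_injective (K.iCycles n)).1 inferInstance
  have hi' : ∀ w : K.X i, (K.iCycles n).hom ((K.toCycles i n).hom w) = (K.d i n).hom w := by
    intro w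
    have := K.toCycles_i i n
    exact LinearMap.congr_fun (ModuleCat.hom_ext_iff.mp this) w
  have hmk : (K.iCycles n).hom (Zmk K n z hz) = z := iCycles_Zmk K n z hz
  constructor
  · intro h
    obtain ⟨w, hw⟩ := hex _ h
    refine ⟨w, ?_⟩
    rw [← hi' w]
    have := congrArg (K.iCycles n).hom hw
    exact this.trans hmk
  · rintro ⟨w, rfl⟩
    have e : Zmk K n ((K.d i n).hom w) hz = (K.toCycles i n).hom w := by
      apply hinj
      rw [hi' w]
      exact iCycles_Zmk K n _ _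
    unfold Hmk
    rw [e]
    have := K.toCycles_comp_homologyπ i n
    exact LinearMap.congr_fun (ModuleCat.hom_ext_iff.mp this) w

theorem Hmk_succ_eq_zero_iff (n : ℕ) (z : K.X (n + 1)) (hz : (K.d (n + 1) (n + 2)).hom z = 0) :
    Hmk K (n + 1) z hz = 0 ↔ ∃ w : K.X n, (K.d n (n + 1)).hom w = z :=
  Hmk_eq_zero_iff_aux K n (n + 1) (by simp) z hz

theorem Hmk_zero_eq_zero_iff (z : K.X 0) (hz : (K.d 0 1).hom z = 0) :
    Hmk K 0 z hz = 0 ↔ z = 0 := by
  rw [Hmk_eq_zero_iff_aux K 0 0 (by simp) z hz]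
  have h0 : K.d 0 0 = 0 := K.shape _ _ (by simp)
  constructor
  · rintro ⟨w, rfl⟩
    rw [h0]
    rfl
  · rintro rfl
    exact ⟨0, by simp⟩

theorem Hmk_congr (n : ℕ) {z z' : K.X n} (h : z = z') (hz : (K.d n (n + 1)).hom z = 0) :
    Hmk K n z hz = Hmk K n z' (h ▸ hz) := by
  subst h
  rfl

theorem Hmk_eq_of (n : ℕ) (z : K.X n) (hz : (K.d n (n + 1)).hom z = 0) (c : K.cycles n)
    (hc : (K.iCycles n).hom c = z) : Hmk K n z hz = (K.homologyπ n).hom c := by
  unfold Hmk
  congr 1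
  apply (ModuleCat.mono_iff_injective (K.iCycles n)).1 inferInstance
  exact (iCycles_Zmk K n z hz).trans hc.symm

theorem Hmk_add (n : ℕ) (z z' : K.X n) (hz : (K.d n (n + 1)).hom z = 0)
    (hz' : (K.d n (n + 1)).hom z' = 0) (hzz' : (K.d n (n + 1)).hom (z + z') = 0) :
    Hmk K n (z + z') hzz' = Hmk K n z hz + Hmk K n z' hz' := by
  rw [Hmk_eq_of K n (z + z') hzz' (Zmk K n z hz + Zmk K n z' hz')
    ((map_add _ _ _).trans (congrArg₂ (· + ·) (iCycles_Zmk K n z hz)
      (iCycles_Zmk K n z' hz'))), map_add]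
  rfl

theorem Hmk_smul (n : ℕ) (c : k) (z : K.X n) (hz : (K.d n (n + 1)).hom z = 0)
    (hcz : (K.d n (n + 1)).hom (c • z) = 0) :
    Hmk K n (c • z) hcz = c • Hmk K n z hz := by
  rw [Hmk_eq_of K n (c • z) hcz (c • Zmk K n z hz)
    ((map_smul _ _ _).trans (congrArg (c • ·) (iCycles_Zmk K n z hz))), map_smul]
  rfl

theorem Hmk_zero (n : ℕ) (h0 : (K.d n (n + 1)).hom 0 = 0) : Hmk K n 0 h0 = 0 := by
  rw [Hmk_eq_of K n 0 h0 0 (map_zero _), map_zero]

/-- Two cocycles have the same class iff they differ by a coboundary (positive degree). -/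
theorem Hmk_succ_eq_iff (n : ℕ) (z z' : K.X (n + 1)) (hz : (K.d (n + 1) (n + 2)).hom z = 0)
    (hz' : (K.d (n + 1) (n + 2)).hom z' = 0) :
    Hmk K (n + 1) z hz = Hmk K (n + 1) z' hz' ↔ ∃ w : K.X n, (K.d n (n + 1)).hom w = z - z' := by
  have hneg : (K.d (n + 1) (n + 2)).hom ((-1 : k) • z') = 0 := by rw [map_smul, hz', smul_zero]
  have h1 := Hmk_add K (n + 1) z ((-1 : k) • z') hz hneg (by rw [map_add, hz, hneg, add_zero])
  have h2 := Hmk_smul K (n + 1) (-1 : k) z' hz' hneg
  have h3 : Hmk K (n + 1) z hz = Hmk K (n + 1) z' hz' ↔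
      Hmk K (n + 1) (z + (-1 : k) • z') (by rw [map_add, hz, hneg, add_zero]) = 0 := by
    rw [h1, h2, neg_one_smul, ← sub_eq_add_neg, sub_eq_zero]
  rw [h3, Hmk_succ_eq_zero_iff, neg_one_smul, ← sub_eq_add_neg]

/-! ### Cocycles as a submodule, descent -/

/-- The submodule of cocycles. -/
def Zsub (n : ℕ) : Submodule k (K.X n) := LinearMap.ker (K.d n (n + 1)).hom

theorem mem_Zsub {n : ℕ} {z : K.X n} : z ∈ Zsub K n ↔ (K.d n (n + 1)).hom z = 0 :=
  LinearMap.mem_ker

/-- The class of a cocycle, as a linear map. -/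
noncomputable def HmkL (n : ℕ) : Zsub K n →ₗ[k] K.homology n where
  toFun z := Hmk K n z.1 ((mem_Zsub K).mp z.2)
  map_add' z z' := Hmk_add K n z.1 z'.1 _ _ _
  map_smul' c z := Hmk_smul K n c z.1 _ _

theorem HmkL_apply (n : ℕ) (z : Zsub K n) :
    HmkL K n z = Hmk K n z.1 ((mem_Zsub K).mp z.2) := rfl

theorem HmkL_surjective (n : ℕ) : Function.Surjective (HmkL K n) := by
  intro x
  obtain ⟨z, hz, rfl⟩ := Hmk_surjective K n x
  exact ⟨⟨z, (mem_Zsub K).mpr hz⟩, rfl⟩

/-- Descent of a linear map from cocycles to homology. -/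
noncomputable def Hdesc {V : Type*} [AddCommGroup V] [Module k V] (n : ℕ)
    (f : Zsub K n →ₗ[k] V) (hf : ∀ z, HmkL K n z = 0 → f z = 0) : K.homology n →ₗ[k] V :=
  ((LinearMap.ker (HmkL K n)).liftQ f fun z hz => LinearMap.mem_ker.mpr (hf z hz)) ∘ₗ
    ((HmkL K n).quotKerEquivOfSurjective (HmkL_surjective K n)).symm.toLinearMap

theorem Hdesc_HmkL {V : Type*} [AddCommGroup V] [Module k V] (n : ℕ)
    (f : Zsub K n →ₗ[k] V) (hf : ∀ z, HmkL K n z = 0 → f z = 0) (z : Zsub K n) :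
    Hdesc K n f hf (HmkL K n z) = f z := by
  unfold Hdesc
  have e : ((HmkL K n).quotKerEquivOfSurjective (HmkL_surjective K n)).symm (HmkL K n z) =
      Submodule.Quotient.mk z := by
    rw [LinearEquiv.symm_apply_eq]
    rfl
  rw [LinearMap.comp_apply, LinearEquiv.coe_coe, e]
  rfl

theorem Hdesc_Hmk {V : Type*} [AddCommGroup V] [Module k V] (n : ℕ)
    (f : Zsub K n →ₗ[k] V) (hf : ∀ z, HmkL K n z = 0 → f z = 0) (z : K.X n)
    (hz : (K.d n (n + 1)).hom z = 0) :
    Hdesc K n f hf (Hmk K n z hz) = f ⟨z, (mem_Zsub K).mpr hz⟩ :=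
  Hdesc_HmkL K n f hf ⟨z, (mem_Zsub K).mpr hz⟩

/-- Two linear maps out of homology agree if they agree on classes of cocycles. -/
theorem homology_hom_ext {V : Type*} [AddCommGroup V] [Module k V] (n : ℕ)
    {f g : K.homology n →ₗ[k] V}
    (h : ∀ (z : K.X n) (hz : (K.d n (n + 1)).hom z = 0), f (Hmk K n z hz) = g (Hmk K n z hz)) :
    f = g := by
  ext x
  obtain ⟨z, hz, rfl⟩ := Hmk_surjective K n x
  exact h z hz

/-! ### Functoriality -/

variable {K} {K' : CochainComplex (ModuleCat.{v} k) ℕ}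

theorem map_d_eq_zero (f : K ⟶ K') (n : ℕ) (z : K.X n) (hz : (K.d n (n + 1)).hom z = 0) :
    (K'.d n (n + 1)).hom ((f.f n).hom z) = 0 := by
  have e := LinearMap.congr_fun (ModuleCat.hom_ext_iff.mp (f.comm n (n + 1))) z
  have e' : (K'.d n (n + 1)).hom ((f.f n).hom z) = (f.f (n + 1)).hom ((K.d n (n + 1)).hom z) := e
  rw [e', hz, map_zero]

theorem homologyMap_Hmk (f : K ⟶ K') (n : ℕ) (z : K.X n) (hz : (K.d n (n + 1)).hom z = 0) :
    (HomologicalComplex.homologyMap f n).hom (Hmk K n z hz) =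
      Hmk K' n ((f.f n).hom z) (map_d_eq_zero f n z hz) := by
  unfold Hmk
  have e1 := LinearMap.congr_fun (ModuleCat.hom_ext_iff.mp
    (HomologicalComplex.homologyπ_naturality f n)) (Zmk K n z hz)
  have e1' : (HomologicalComplex.homologyMap f n).hom ((K.homologyπ n).hom (Zmk K n z hz)) =
      (K'.homologyπ n).hom ((HomologicalComplex.cyclesMap f n).hom (Zmk K n z hz)) := e1
  rw [e1']
  congr 1
  apply (ModuleCat.mono_iff_injective (K'.iCycles n)).1 inferInstance
  rw [iCycles_Zmk]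
  have e2 := LinearMap.congr_fun (ModuleCat.hom_ext_iff.mp
    (HomologicalComplex.cyclesMap_i f n)) (Zmk K n z hz)
  have e2' : (K'.iCycles n).hom ((HomologicalComplex.cyclesMap f n).hom (Zmk K n z hz)) =
      (f.f n).hom ((K.iCycles n).hom (Zmk K n z hz)) := e2
  rw [e2', iCycles_Zmk]

end Fermat.Agent.S55.H62
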