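import Fermat.Agent.S55.H62.HomologyElt

/-!
# Pairings of cochain complexes of modules and the induced pairings on homology
(package C2 of Program C, Mathlib only)

A *pairing of complexes* `K × L → T` is a family of bilinear maps `Kᵐ × Lⁿ → Tʳ` satisfying the
Leibniz rule `d (x · y) = d x · y + (-1)^m x · d y` whenever `m + n = r`.  It induces bilinear maps
`Hᵐ(K) × Hⁿ(L) → Hʳ(T)`, characterised on classes of cocycles (`CPairing.H_mk`).
-/

set_option autoImplicit false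

open CategoryTheory

namespace Fermat.Agent.S55.H62

universe v u

variable {k : Type u} [CommRing k]

/-- A pairing of cochain complexes of modules. The maps `P m n r` are only meaningful for
`m + n = r`. -/
structure CPairing (K L T : CochainComplex (ModuleCat.{v} k) ℕ) where
  /-- the bilinear maps -/
  P : ∀ m n r : ℕ, K.X m →ₗ[k] L.X n →ₗ[k] T.X r
  /-- the Leibniz rule -/
  leibniz : ∀ (m n r : ℕ), m + n = r → ∀ (x : K.X m) (y : L.X n),
    (T.d r (r + 1)).hom (P m n r x y) =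
      P (m + 1) n (r + 1) ((K.d m (m + 1)).hom x) y +
        (-1 : k) ^ m • P m (n + 1) (r + 1) x ((L.d n (n + 1)).hom y)

namespace CPairing

variable {K L T : CochainComplex (ModuleCat.{v} k) ℕ} (P : CPairing K L T)

theorem d_P_of_cocycle {m n r : ℕ} (h : m + n = r) {x : K.X m} {y : L.X n}
    (hx : (K.d m (m + 1)).hom x = 0) (hy : (L.d n (n + 1)).hom y = 0) :
    (T.d r (r + 1)).hom (P.P m n r x y) = 0 := by
  rw [P.leibniz m n r h, hx, hy, map_zero, map_zero, LinearMap.zero_apply, smul_zero, add_zero]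

/-- The pairing restricted to cocycles, with values in homology. -/
noncomputable def Z (m n r : ℕ) (h : m + n = r) :
    Zsub K m →ₗ[k] Zsub L n →ₗ[k] T.homology r :=
  LinearMap.mk₂ k
    (fun x y => Hmk T r (P.P m n r x.1 y.1)
      (P.d_P_of_cocycle h ((mem_Zsub K).mp x.2) ((mem_Zsub L).mp y.2)))
    (fun x x' y => by
      rw [← Hmk_add]
      exact Hmk_congr T r (by simp) _)
    (fun c x y => by
      rw [← Hmk_smul]
      exact Hmk_congr T r (by simp) _)
    (fun x y y' => by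
      rw [← Hmk_add]
      exact Hmk_congr T r (by simp) _)
    (fun c x y => by
      rw [← Hmk_smul]
      exact Hmk_congr T r (by simp) _)

theorem Z_apply (m n r : ℕ) (h : m + n = r) (x : Zsub K m) (y : Zsub L n) :
    P.Z m n r h x y = Hmk T r (P.P m n r x.1 y.1)
      (P.d_P_of_cocycle h ((mem_Zsub K).mp x.2) ((mem_Zsub L).mp y.2)) := rfl

/-- The pairing of a cocycle with a coboundary is a coboundary. -/
theorem Z_right_eq_zero (m n r : ℕ) (h : m + n = r) (x : Zsub K m) (y : Zsub L n)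
    (hy : HmkL L n y = 0) : P.Z m n r h x y = 0 := by
  rw [Z_apply]
  rw [HmkL_apply] at hy
  have hx0 := (mem_Zsub K).mp x.2
  cases n with
  | zero =>
    rw [Hmk_zero_eq_zero_iff] at hy
    rw [← Hmk_zero T r (map_zero _)]
    exact Hmk_congr T r (by rw [hy, map_zero]) _
  | succ n' =>
    subst h
    rw [Hmk_succ_eq_zero_iff] at hy
    obtain ⟨w, hw⟩ := hy
    have hl := P.leibniz m n' (m + n') rfl x.1 w
    rw [hx0, map_zero, LinearMap.zero_apply, zero_add, hw] at hl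
    show Hmk T (m + n' + 1) _ _ = 0
    rw [Hmk_succ_eq_zero_iff]
    refine ⟨(-1 : k) ^ m • P.P m n' (m + n') x.1 w, ?_⟩
    rw [map_smul, hl, smul_smul, ← mul_pow]
    simp only [mul_neg, mul_one, neg_neg, one_pow, one_smul]
    rfl

/-- The pairing of a coboundary with a cocycle is a coboundary. -/
theorem Z_left_eq_zero (m n r : ℕ) (h : m + n = r) (x : Zsub K m) (y : Zsub L n)
    (hx : HmkL K m x = 0) : P.Z m n r h x y = 0 := by
  rw [Z_apply]
  rw [HmkL_apply] at hx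
  have hy0 := (mem_Zsub L).mp y.2
  cases m with
  | zero =>
    rw [Hmk_zero_eq_zero_iff] at hx
    rw [← Hmk_zero T r (map_zero _)]
    exact Hmk_congr T r (by rw [hx, map_zero, LinearMap.zero_apply]) _
  | succ m' =>
    obtain ⟨r', rfl⟩ : ∃ r', r = r' + 1 := ⟨m' + n, by omega⟩
    rw [Hmk_succ_eq_zero_iff] at hx
    obtain ⟨w, hw⟩ := hx
    have hl := P.leibniz m' n r' (by omega) w y.1
    rw [hy0, map_zero, smul_zero, add_zero, hw] at hl
    rw [Hmk_succ_eq_zero_iff]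
    exact ⟨P.P m' n r' w y.1, hl⟩

/-- The pairing of a cocycle with a homology class. -/
noncomputable def Hleft (m n r : ℕ) (h : m + n = r) :
    Zsub K m →ₗ[k] L.homology n →ₗ[k] T.homology r where
  toFun x := Hdesc L n (P.Z m n r h x) (fun y hy => P.Z_right_eq_zero m n r h x y hy)
  map_add' x x' := by
    refine homology_hom_ext L n fun z hz => ?_
    rw [LinearMap.add_apply, Hdesc_Hmk, Hdesc_Hmk, Hdesc_Hmk, map_add, LinearMap.add_apply]
  map_smul' c x := by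
    refine homology_hom_ext L n fun z hz => ?_
    rw [LinearMap.smul_apply, Hdesc_Hmk, Hdesc_Hmk, map_smul, LinearMap.smul_apply]
    rfl

theorem Hleft_mk (m n r : ℕ) (h : m + n = r) (x : Zsub K m) (y : L.X n)
    (hy : (L.d n (n + 1)).hom y = 0) :
    P.Hleft m n r h x (Hmk L n y hy) = P.Z m n r h x ⟨y, (mem_Zsub L).mpr hy⟩ :=
  Hdesc_Hmk L n (P.Z m n r h x) (fun y hy => P.Z_right_eq_zero m n r h x y hy) y hy

/-- The induced pairing on homology `Hᵐ(K) × Hⁿ(L) → Hʳ(T)`, `m + n = r`. -/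
noncomputable def H (m n r : ℕ) (h : m + n = r) :
    K.homology m →ₗ[k] L.homology n →ₗ[k] T.homology r :=
  Hdesc K m (P.Hleft m n r h) (fun x hx => by
    refine homology_hom_ext L n fun z hz => ?_
    rw [Hleft_mk, LinearMap.zero_apply]
    exact P.Z_left_eq_zero m n r h x _ hx)

/-- The induced pairing on classes of cocycles. -/
theorem H_mk (m n r : ℕ) (h : m + n = r) (x : K.X m) (hx : (K.d m (m + 1)).hom x = 0)
    (y : L.X n) (hy : (L.d n (n + 1)).hom y = 0) :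
    P.H m n r h (Hmk K m x hx) (Hmk L n y hy) =
      Hmk T r (P.P m n r x y) (P.d_P_of_cocycle h hx hy) := by
  unfold H
  rw [Hdesc_Hmk, Hleft_mk]
  rfl

end CPairing

/-! ### Naturality -/

section Naturality

variable {K₁ L₁ T₁ K₂ L₂ T₂ : CochainComplex (ModuleCat.{v} k) ℕ}

/-- Naturality of the induced pairing (covariant in both variables). -/
theorem CPairing.H_map (P₁ : CPairing K₁ L₁ T₁) (P₂ : CPairing K₂ L₂ T₂) (f : K₁ ⟶ K₂)
    (g : L₁ ⟶ L₂) (t : T₁ ⟶ T₂)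
    (hc : ∀ (m n r : ℕ), m + n = r → ∀ (x : K₁.X m) (y : L₁.X n),
      (t.f r).hom (P₁.P m n r x y) = P₂.P m n r ((f.f m).hom x) ((g.f n).hom y))
    (m n r : ℕ) (h : m + n = r) (x : K₁.homology m) (y : L₁.homology n) :
    (HomologicalComplex.homologyMap t r).hom (P₁.H m n r h x y) =
      P₂.H m n r h ((HomologicalComplex.homologyMap f m).hom x)
        ((HomologicalComplex.homologyMap g n).hom y) := by
  obtain ⟨x, hx, rfl⟩ := Hmk_surjective K₁ m x
  obtain ⟨y, hy, rfl⟩ := Hmk_surjective L₁ n y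
  rw [P₁.H_mk, homologyMap_Hmk, homologyMap_Hmk, homologyMap_Hmk, P₂.H_mk]
  exact Hmk_congr T₂ r (hc m n r h x y) _

/-- Naturality of the induced pairing (projection formula: covariant in the first variable and the
target, contravariant in the second variable). -/
theorem CPairing.H_proj (P₁ : CPairing K₁ L₁ T₁) (P₂ : CPairing K₂ L₂ T₂) (f : K₁ ⟶ K₂)
    (g : L₂ ⟶ L₁) (t : T₁ ⟶ T₂)
    (hc : ∀ (m n r : ℕ), m + n = r → ∀ (x : K₁.X m) (y : L₂.X n),
      (t.f r).hom (P₁.P m n r x ((g.f n).hom y)) = P₂.P m n r ((f.f m).hom x) y)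
    (m n r : ℕ) (h : m + n = r) (x : K₁.homology m) (y : L₂.homology n) :
    (HomologicalComplex.homologyMap t r).hom
        (P₁.H m n r h x ((HomologicalComplex.homologyMap g n).hom y)) =
      P₂.H m n r h ((HomologicalComplex.homologyMap f m).hom x) y := by
  obtain ⟨x, hx, rfl⟩ := Hmk_surjective K₁ m x
  obtain ⟨y, hy, rfl⟩ := Hmk_surjective L₂ n y
  rw [homologyMap_Hmk, P₁.H_mk, homologyMap_Hmk, homologyMap_Hmk, P₂.H_mk]
  exact Hmk_congr T₂ r (hc m n r h x y) _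

/-- Naturality of the induced pairing (contravariant in the first variable, covariant in the
second variable and the target). -/
theorem CPairing.H_proj' (P₁ : CPairing K₁ L₁ T₁) (P₂ : CPairing K₂ L₂ T₂) (f : K₂ ⟶ K₁)
    (g : L₁ ⟶ L₂) (t : T₁ ⟶ T₂)
    (hc : ∀ (m n r : ℕ), m + n = r → ∀ (x : K₂.X m) (y : L₁.X n),
      (t.f r).hom (P₁.P m n r ((f.f m).hom x) y) = P₂.P m n r x ((g.f n).hom y))
    (m n r : ℕ) (h : m + n = r) (x : K₂.homology m) (y : L₁.homology n) :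
    (HomologicalComplex.homologyMap t r).hom
        (P₁.H m n r h ((HomologicalComplex.homologyMap f m).hom x) y) =
      P₂.H m n r h x ((HomologicalComplex.homologyMap g n).hom y) := by
  obtain ⟨x, hx, rfl⟩ := Hmk_surjective K₂ m x
  obtain ⟨y, hy, rfl⟩ := Hmk_surjective L₁ n y
  rw [homologyMap_Hmk, P₁.H_mk, homologyMap_Hmk, homologyMap_Hmk, P₂.H_mk]
  exact Hmk_congr T₂ r (hc m n r h x y) _

end Naturality

/-! ### The connecting homomorphism on classes of cocycles -/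

section Delta

variable {S : ShortComplex (CochainComplex (ModuleCat.{v} k) ℕ)} (hS : S.ShortExact)

include hS in
theorem shortExact_eval (n : ℕ) :
    (S.map (HomologicalComplex.eval (ModuleCat.{v} k) (ComplexShape.up ℕ) n)).ShortExact :=
  hS.map_of_exact (HomologicalComplex.eval (ModuleCat.{v} k) (ComplexShape.up ℕ) n)

include hS in
theorem ShortExact_f_injective (n : ℕ) : Function.Injective (S.f.f n).hom :=
  (shortExact_eval hS n).moduleCat_injective_f

include hS in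
theorem ShortExact_g_surjective (n : ℕ) : Function.Surjective (S.g.f n).hom :=
  (shortExact_eval hS n).moduleCat_surjective_g

include hS in
theorem ShortExact_exact (n : ℕ) (x₂ : S.X₂.X n) (hx₂ : (S.g.f n).hom x₂ = 0) :
    ∃ x₁ : S.X₁.X n, (S.f.f n).hom x₁ = x₂ :=
  (ShortComplex.moduleCat_exact_iff _).mp (shortExact_eval hS n).exact x₂ hx₂

/-- The connecting homomorphism on the class of a cocycle `x₃`: lift `x₃` to `x₂`, and write
`d x₂ = f x₁`; then `δ [x₃] = [x₁]`. -/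
theorem delta_Hmk (n : ℕ) (x₃ : S.X₃.X n) (hx₃ : (S.X₃.d n (n + 1)).hom x₃ = 0)
    (x₂ : S.X₂.X n) (hx₂ : (S.g.f n).hom x₂ = x₃) (x₁ : S.X₁.X (n + 1))
    (hx₁ : (S.f.f (n + 1)).hom x₁ = (S.X₂.d n (n + 1)).hom x₂) :
    ∃ hx₁' : (S.X₁.d (n + 1) (n + 2)).hom x₁ = 0,
      (hS.δ n (n + 1) rfl).hom (Hmk S.X₃ n x₃ hx₃) = Hmk S.X₁ (n + 1) x₁ hx₁' := by
  have h0 : (S.X₁.d (n + 1) (n + 2)).hom x₁ = 0 := by
    apply ShortExact_f_injective hS (n + 2)
    have e := LinearMap.congr_fun (ModuleCat.hom_ext_iff.mp (S.f.comm (n + 1) (n + 2))) x₁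
    have e' : (S.f.f (n + 2)).hom ((S.X₁.d (n + 1) (n + 2)).hom x₁) =
        (S.X₂.d (n + 1) (n + 2)).hom ((S.f.f (n + 1)).hom x₁) := e.symm
    rw [e', hx₁, map_zero]
    exact LinearMap.congr_fun (ModuleCat.hom_ext_iff.mp (S.X₂.d_comp_d n (n + 1) (n + 2))) x₂
  refine ⟨h0, ?_⟩
  exact hS.δ_apply n (n + 1) rfl x₃ (by simpa using hx₃) x₂ hx₂ x₁ hx₁ (n + 2) (by simp)

include hS in
/-- Existence of the data computing the connecting homomorphism. -/
theorem exists_delta_data (n : ℕ) (x₃ : S.X₃.X n) (hx₃ : (S.X₃.d n (n + 1)).hom x₃ = 0) :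
    ∃ (x₂ : S.X₂.X n) (x₁ : S.X₁.X (n + 1)), (S.g.f n).hom x₂ = x₃ ∧
      (S.f.f (n + 1)).hom x₁ = (S.X₂.d n (n + 1)).hom x₂ := by
  obtain ⟨x₂, hx₂⟩ := ShortExact_g_surjective hS n x₃
  have e := LinearMap.congr_fun (ModuleCat.hom_ext_iff.mp (S.g.comm n (n + 1))) x₂
  have e' : (S.g.f (n + 1)).hom ((S.X₂.d n (n + 1)).hom x₂) =
      (S.X₃.d n (n + 1)).hom ((S.g.f n).hom x₂) := e.symm
  rw [hx₂, hx₃] at e'
  obtain ⟨x₁, hx₁⟩ := ShortExact_exact hS (n + 1) _ e'
  exact ⟨x₂, x₁, hx₂, hx₁⟩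

end Delta

/-- **Compatibility of the induced pairings with the connecting homomorphisms.** -/
theorem CPairing.H_delta {SK SL : ShortComplex (CochainComplex (ModuleCat.{v} k) ℕ)}
    (hK : SK.ShortExact) (hL : SL.ShortExact) {T : CochainComplex (ModuleCat.{v} k) ℕ}
    (P₁ : CPairing SK.X₁ SL.X₃ T) (P₂ : CPairing SK.X₂ SL.X₂ T) (P₃ : CPairing SK.X₃ SL.X₁ T)
    (h12 : ∀ (m n r : ℕ), m + n = r → ∀ (x : SK.X₁.X m) (y : SL.X₂.X n),
      P₂.P m n r ((SK.f.f m).hom x) y = P₁.P m n r x ((SL.g.f n).hom y))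
    (h23 : ∀ (m n r : ℕ), m + n = r → ∀ (x : SK.X₂.X m) (y : SL.X₁.X n),
      P₂.P m n r x ((SL.f.f n).hom y) = P₃.P m n r ((SK.g.f m).hom x) y)
    (m n r : ℕ) (h : m + n = r) (x : SK.X₃.homology m) (y : SL.X₃.homology n) :
    P₁.H (m + 1) n (r + 1) (by omega) ((hK.δ m (m + 1) rfl).hom x) y +
      (-1 : k) ^ m • P₃.H m (n + 1) (r + 1) (by omega) x ((hL.δ n (n + 1) rfl).hom y) = 0 := by
  obtain ⟨x₃, hx₃, rfl⟩ := Hmk_surjective SK.X₃ m x
  obtain ⟨y₃, hy₃, rfl⟩ := Hmk_surjective SL.X₃ n y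
  obtain ⟨x₂, x₁, hx₂, hx₁⟩ := exists_delta_data hK m x₃ hx₃
  obtain ⟨y₂, y₁, hy₂, hy₁⟩ := exists_delta_data hL n y₃ hy₃
  obtain ⟨hx₁', ex⟩ := delta_Hmk hK m x₃ hx₃ x₂ hx₂ x₁ hx₁
  obtain ⟨hy₁', ey⟩ := delta_Hmk hL n y₃ hy₃ y₂ hy₂ y₁ hy₁
  rw [ex, ey, P₁.H_mk, P₃.H_mk, ← Hmk_smul T (r + 1) ((-1 : k) ^ m) _ _
    (by rw [map_smul, P₃.d_P_of_cocycle (by omega) hx₃ hy₁', smul_zero]),
    ← Hmk_add T (r + 1) _ _ _ _
    (by rw [map_add, map_smul, P₁.d_P_of_cocycle (by omega) hx₁' hy₃,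
      P₃.d_P_of_cocycle (by omega) hx₃ hy₁', smul_zero, add_zero]),
    Hmk_succ_eq_zero_iff]
  refine ⟨P₂.P m n r x₂ y₂, ?_⟩
  rw [P₂.leibniz m n r h, ← hx₁, ← hy₁, h12 _ _ _ (by omega), h23 _ _ _ (by omega), hx₂, hy₂]

end Fermat.Agent.S55.H62
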