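import Mathlib

/-!
# Cup products on inhomogeneous cochains (package C2 of Program C, Mathlib only)

For `k`-linear `G`-representations `A`, `B`, `C` and a `G`-equivariant bilinear map
`φ : A → B → C` we define the cup product of inhomogeneous cochains
`(f ∪ g)(x₁, …, x_{m+n}) = φ (f (x₁, …, x_m)) ((x₁ ⋯ x_m) • g (x_{m+1}, …, x_{m+n}))`
and prove the Leibniz rule `d (f ∪ g) = d f ∪ g + (-1)^m f ∪ d g` for Mathlib's differential
`inhomogeneousCochains.d`, in all degrees.
-/

set_option autoImplicit false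

namespace Fermat.Agent.S55.H62

universe u

/-- The first `m` entries of a tuple of length `m + n`. -/
def tupleFst {α : Type*} {m n : ℕ} (x : Fin (m + n) → α) : Fin m → α :=
  fun i => x (Fin.castAdd n i)

/-- The last `n` entries of a tuple of length `m + n`. -/
def tupleSnd {α : Type*} {m n : ℕ} (x : Fin (m + n) → α) : Fin n → α :=
  fun j => x (Fin.natAdd m j)

/-- The ordered product `y₀ y₁ ⋯ y_{m-1}` of a tuple. -/
def tupleProd {M : Type*} [Monoid M] {m : ℕ} (y : Fin m → M) : M :=
  Fin.partialProd y (Fin.last m)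

theorem tupleProd_zero {M : Type*} [Monoid M] (y : Fin 0 → M) : tupleProd y = 1 := by
  simp [tupleProd]

theorem tupleProd_succ {M : Type*} [Monoid M] {m : ℕ} (y : Fin (m + 1) → M) :
    tupleProd y = y 0 * tupleProd (fun i : Fin m => y i.succ) := by
  unfold tupleProd
  rw [← Fin.succ_last, Fin.partialProd_succ']
  rfl

theorem tupleProd_castSucc {M : Type*} [Monoid M] {m : ℕ} (y : Fin (m + 1) → M) :
    tupleProd y = tupleProd (fun i : Fin m => y i.castSucc) * y (Fin.last m) := by
  unfold tupleProd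
  rw [← Fin.succ_last, Fin.partialProd_succ]
  congr 1
  exact (Fin.partialProd_init (f := y) (Fin.last m)).symm

theorem tupleProd_contractNth {M : Type*} [Monoid M] {m : ℕ} (y : Fin (m + 1) → M)
    (j : Fin (m + 1)) (hj : (j : ℕ) < m) :
    tupleProd (Fin.contractNth j (· * ·) y) = tupleProd y := by
  unfold tupleProd
  rw [Fin.partialProd_contractNth]
  simp only [Function.comp_apply]
  congr 1
  rw [Fin.succAbove_of_le_castSucc]
  · simp
  · rw [Fin.le_def]
    simp
    omega

/-! ### Tuple bookkeeping -/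

section Tuples

variable {α : Type*} {m n : ℕ}

/-- Reindex a tuple of length `m + n + 1` as a tuple of length `(m + 1) + n`. -/
def tupleShift (x : Fin (m + n + 1) → α) : Fin (m + 1 + n) → α :=
  fun i => x (Fin.cast (Nat.add_right_comm m 1 n) i)

theorem tupleFst_shift_zero (x : Fin (m + n + 1) → α) :
    tupleFst (tupleShift x) 0 = x 0 := by
  unfold tupleFst tupleShift
  congr 1

theorem tupleFst_shift_succ (x : Fin (m + n + 1) → α) :
    (fun i : Fin m => tupleFst (tupleShift x) i.succ) =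
      tupleFst (m := m) (n := n) (fun i => x i.succ) := by
  funext i
  unfold tupleFst tupleShift
  congr 1

theorem tupleFst_shift_castSucc (x : Fin (m + n + 1) → α) :
    (fun i : Fin m => tupleFst (tupleShift x) i.castSucc) =
      tupleFst (m := m) (n := n + 1) x := by
  funext i
  unfold tupleFst tupleShift
  congr 1

theorem tupleFst_shift_last (x : Fin (m + n + 1) → α) :
    tupleFst (tupleShift x) (Fin.last m) = tupleSnd (m := m) (n := n + 1) x 0 := by
  unfold tupleFst tupleShift tupleSnd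
  congr 1

theorem tupleSnd_shift (x : Fin (m + n + 1) → α) :
    tupleSnd (tupleShift x) = tupleSnd (m := m) (n := n) (fun i => x i.succ) := by
  funext i
  unfold tupleSnd tupleShift
  congr 1
  ext
  simp
  omega

theorem tupleSnd_shift' (x : Fin (m + n + 1) → α) :
    tupleSnd (tupleShift x) = fun j : Fin n => tupleSnd (m := m) (n := n + 1) x j.succ := by
  funext i
  unfold tupleSnd tupleShift
  congr 1
  ext
  simp
  omega

variable (op : α → α → α)

theorem tupleFst_contractNth_castAdd (x : Fin (m + n + 1) → α) (j : Fin m) :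
    tupleFst (m := m) (n := n) (Fin.contractNth (Fin.castAdd (n + 1) j) op x) =
      Fin.contractNth j.castSucc op (tupleFst (tupleShift x)) := by
  funext i
  unfold tupleFst tupleShift Fin.contractNth
  simp only [Fin.val_castAdd, Fin.val_castSucc]
  split_ifs <;> rfl

theorem tupleSnd_contractNth_castAdd (x : Fin (m + n + 1) → α) (j : Fin m) :
    tupleSnd (m := m) (n := n) (Fin.contractNth (Fin.castAdd (n + 1) j) op x) =
      tupleSnd (tupleShift x) := by
  funext i
  unfold tupleSnd tupleShift Fin.contractNth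
  simp only [Fin.val_castAdd, Fin.val_natAdd]
  have h1 : ¬ (m + (i : ℕ) < (j : ℕ)) := by omega
  have h2 : ¬ (m + (i : ℕ) = (j : ℕ)) := by omega
  rw [if_neg h1, if_neg h2]
  congr 1
  ext
  simp
  omega

theorem tupleFst_contractNth_natAdd (x : Fin (m + n + 1) → α) (j : Fin (n + 1)) :
    tupleFst (m := m) (n := n) (Fin.contractNth (Fin.natAdd m j) op x) =
      tupleFst (m := m) (n := n + 1) x := by
  funext i
  unfold tupleFst Fin.contractNth
  simp only [Fin.val_castAdd, Fin.val_natAdd]
  have h1 : (i : ℕ) < m + (j : ℕ) := by omega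
  rw [if_pos h1]
  rfl

theorem tupleSnd_contractNth_natAdd (x : Fin (m + n + 1) → α) (j : Fin (n + 1)) :
    tupleSnd (m := m) (n := n) (Fin.contractNth (Fin.natAdd m j) op x) =
      Fin.contractNth j op (tupleSnd (m := m) (n := n + 1) x) := by
  funext i
  unfold tupleSnd Fin.contractNth
  simp only [Fin.val_natAdd, add_lt_add_iff_left, add_right_inj]
  split_ifs <;> rfl

theorem contractNth_last (y : Fin (m + 1) → α) :
    Fin.contractNth (Fin.last m) op y = fun i : Fin m => y i.castSucc := by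
  funext i
  unfold Fin.contractNth
  simp

end Tuples

/-! ### The cup product -/

section Cup

open groupCohomology

variable {k G : Type u} [CommRing k] [Group G] {A B C : Rep.{u} k G}

/-- A bilinear map `φ : A → B → C` is equivariant: `φ (g a) (g b) = g (φ a b)`. -/
def IsEquivariantPairing (φ : A →ₗ[k] B →ₗ[k] C) : Prop :=
  ∀ (g : G) (a : A) (b : B), φ (A.ρ g a) (B.ρ g b) = C.ρ g (φ a b)

/-- The cup product of inhomogeneous cochains with respect to a bilinear map `φ`. -/
def cup (φ : A →ₗ[k] B →ₗ[k] C) (m n : ℕ) (f : (Fin m → G) → A) (g : (Fin n → G) → B) :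
    (Fin (m + n) → G) → C :=
  fun x => φ (f (tupleFst x)) (B.ρ (tupleProd (tupleFst x)) (g (tupleSnd x)))

theorem cup_apply (φ : A →ₗ[k] B →ₗ[k] C) (m n : ℕ) (f : (Fin m → G) → A)
    (g : (Fin n → G) → B) (x : Fin (m + n) → G) :
    cup φ m n f g x = φ (f (tupleFst x)) (B.ρ (tupleProd (tupleFst x)) (g (tupleSnd x))) := rfl

/-- **Leibniz rule** for the cup product of inhomogeneous cochains. -/
theorem d_cup (φ : A →ₗ[k] B →ₗ[k] C) (hφ : IsEquivariantPairing φ) (m n : ℕ)
    (f : (Fin m → G) → A) (g : (Fin n → G) → B) (x : Fin (m + n + 1) → G) :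
    inhomogeneousCochains.d C (m + n) (cup φ m n f g) x =
      cup φ (m + 1) n (inhomogeneousCochains.d A m f) g (tupleShift x) +
        (-1 : k) ^ m • cup φ m (n + 1) f (inhomogeneousCochains.d B n g) x := by
  have hd : ∀ (X : Rep.{u} k G) (r : ℕ) (h : (Fin r → G) → X) (y : Fin (r + 1) → G),
      inhomogeneousCochains.d X r h y = X.ρ (y 0) (h fun i => y i.succ) +
        ∑ j : Fin (r + 1), (-1 : k) ^ ((j : ℕ) + 1) • h (Fin.contractNth j (· * ·) y) :=
    fun X r h y => inhomogeneousCochains.d_hom_apply X r h y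
  obtain ⟨y, hy⟩ : ∃ y : Fin (m + 1) → G, y = tupleFst (tupleShift x) := ⟨_, rfl⟩
  obtain ⟨t, ht⟩ : ∃ t : Fin n → G, t = tupleSnd (tupleShift x) := ⟨_, rfl⟩
  obtain ⟨a0, ha0⟩ : ∃ a0 : Fin m → G, a0 = tupleFst (m := m) (n := n + 1) x := ⟨_, rfl⟩
  obtain ⟨s, hs⟩ : ∃ s : Fin (n + 1) → G, s = tupleSnd (m := m) (n := n + 1) x := ⟨_, rfl⟩
  -- the leading term
  have h0 : C.ρ (x 0) (cup φ m n f g (fun i => x i.succ)) =
      φ (A.ρ (y 0) (f fun i => y i.succ)) (B.ρ (tupleProd y) (g t)) := by
    rw [cup_apply, ← hφ, tupleProd_succ y, map_mul, hy, ht, ← tupleFst_shift_succ,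
      ← tupleSnd_shift, tupleFst_shift_zero]
    rfl
  -- the terms `j < m`
  have h1 : ∀ j : Fin m, cup φ m n f g (Fin.contractNth (Fin.castAdd (n + 1) j) (· * ·) x) =
      φ (f (Fin.contractNth j.castSucc (· * ·) y)) (B.ρ (tupleProd y) (g t)) := by
    intro j
    rw [cup_apply, tupleFst_contractNth_castAdd, tupleSnd_contractNth_castAdd,
      tupleProd_contractNth _ _ (by simp), hy, ht]
  -- the terms `j ≥ m`
  have h2 : ∀ j : Fin (n + 1), cup φ m n f g (Fin.contractNth (Fin.natAdd m j) (· * ·) x) =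
      φ (f a0) (B.ρ (tupleProd a0) (g (Fin.contractNth j (· * ·) s))) := by
    intro j
    rw [cup_apply, tupleFst_contractNth_natAdd, tupleSnd_contractNth_natAdd, ha0, hs]
  have h3 : tupleProd y = tupleProd a0 * s 0 := by
    rw [tupleProd_castSucc, hy, tupleFst_shift_castSucc, tupleFst_shift_last, ha0, hs]
  have h4 : Fin.contractNth (Fin.last m) (· * ·) y = a0 := by
    rw [contractNth_last, hy, tupleFst_shift_castSucc, ha0]
  have h5 : t = fun j : Fin n => s j.succ := by
    rw [ht, hs]
    exact tupleSnd_shift' x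
  have hsum : ∑ j : Fin (m + n + 1),
        (-1 : k) ^ ((j : ℕ) + 1) • cup φ m n f g (Fin.contractNth j (· * ·) x) =
      ∑ j : Fin m, (-1 : k) ^ ((j : ℕ) + 1) •
          φ (f (Fin.contractNth j.castSucc (· * ·) y)) (B.ρ (tupleProd y) (g t)) +
        ∑ j : Fin (n + 1), (-1 : k) ^ (m + (j : ℕ) + 1) •
          φ (f a0) (B.ρ (tupleProd a0) (g (Fin.contractNth j (· * ·) s))) := by
    refine (Fin.sum_univ_add (a := m) (b := n + 1) _).trans ?_
    congr 1
    · refine Finset.sum_congr rfl fun j _ => ?_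
      rw [h1]
      rfl
    · refine Finset.sum_congr rfl fun j _ => ?_
      rw [h2]
      rfl
  have h6 : B.ρ (tupleProd y) (g t) = B.ρ (tupleProd a0) (B.ρ (s 0) (g fun i => s i.succ)) := by
    rw [h3, map_mul, h5]
    rfl
  have h7 : ∀ j : Fin (n + 1), (-1 : k) ^ (m + (j : ℕ) + 1) = (-1) ^ m * (-1) ^ ((j : ℕ) + 1) :=
    fun j => by rw [add_assoc, pow_add]
  rw [hd C, cup_apply φ (m + 1) n, hd A, cup_apply φ m (n + 1), hd B, h0, hsum, ← hy, ← ht,
    ← ha0, ← hs, Fin.sum_univ_castSucc (n := m), h4, h6]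
  simp only [Fin.val_castSucc, Fin.val_last, map_add, map_sum, map_smul, LinearMap.add_apply,
    LinearMap.sum_apply, LinearMap.smul_apply, h7, mul_smul, ← Finset.smul_sum]
  rw [pow_succ]
  module

/-! ### The cup product with a prescribed target degree -/

/-- The cup product with values in degree `r`; it is zero unless `m + n = r`. -/
def cupR (φ : A →ₗ[k] B →ₗ[k] C) (m n r : ℕ) (f : (Fin m → G) → A) (g : (Fin n → G) → B) :
    (Fin r → G) → C :=
  if h : m + n = r then fun x => cup φ m n f g (fun i => x (Fin.cast h i)) else 0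

theorem cupR_of_eq (φ : A →ₗ[k] B →ₗ[k] C) {m n r : ℕ} (h : m + n = r) (f : (Fin m → G) → A)
    (g : (Fin n → G) → B) (x : Fin r → G) :
    cupR φ m n r f g x = cup φ m n f g (fun i => x (Fin.cast h i)) := by
  unfold cupR
  rw [dif_pos h]

theorem cupR_self (φ : A →ₗ[k] B →ₗ[k] C) (m n : ℕ) (f : (Fin m → G) → A)
    (g : (Fin n → G) → B) : cupR φ m n (m + n) f g = cup φ m n f g := by
  funext x
  rw [cupR_of_eq φ rfl]
  rfl

/-- **Leibniz rule**, with a prescribed target degree. -/
theorem d_cupR (φ : A →ₗ[k] B →ₗ[k] C) (hφ : IsEquivariantPairing φ) {m n r : ℕ} (h : m + n = r)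
    (f : (Fin m → G) → A) (g : (Fin n → G) → B) :
    inhomogeneousCochains.d C r (cupR φ m n r f g) =
      cupR φ (m + 1) n (r + 1) (inhomogeneousCochains.d A m f) g +
        (-1 : k) ^ m • cupR φ m (n + 1) (r + 1) f (inhomogeneousCochains.d B n g) := by
  subst h
  funext x
  have e : cupR φ m (n + 1) (m + n + 1) f (inhomogeneousCochains.d B n g) x =
      cup φ m (n + 1) f (inhomogeneousCochains.d B n g) x :=
    congrFun (cupR_self φ m (n + 1) f (inhomogeneousCochains.d B n g)) x
  rw [cupR_self, d_cup φ hφ, Pi.add_apply, Pi.smul_apply,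
    cupR_of_eq φ (Nat.add_right_comm m 1 n), e]
  rfl

theorem cupR_add_left (φ : A →ₗ[k] B →ₗ[k] C) (m n r : ℕ) (f f' : (Fin m → G) → A)
    (g : (Fin n → G) → B) : cupR φ m n r (f + f') g = cupR φ m n r f g + cupR φ m n r f' g := by
  unfold cupR
  split_ifs with h
  · funext x
    simp [cup_apply]
  · simp

theorem cupR_smul_left (φ : A →ₗ[k] B →ₗ[k] C) (m n r : ℕ) (c : k) (f : (Fin m → G) → A)
    (g : (Fin n → G) → B) : cupR φ m n r (c • f) g = c • cupR φ m n r f g := by
  unfold cupR
  split_ifs with h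
  · funext x
    simp [cup_apply]
  · simp

theorem cupR_add_right (φ : A →ₗ[k] B →ₗ[k] C) (m n r : ℕ) (f : (Fin m → G) → A)
    (g g' : (Fin n → G) → B) : cupR φ m n r f (g + g') = cupR φ m n r f g + cupR φ m n r f g' := by
  unfold cupR
  split_ifs with h
  · funext x
    simp [cup_apply]
  · simp

theorem cupR_smul_right (φ : A →ₗ[k] B →ₗ[k] C) (m n r : ℕ) (c : k) (f : (Fin m → G) → A)
    (g : (Fin n → G) → B) : cupR φ m n r f (c • g) = c • cupR φ m n r f g := by
  unfold cupR
  split_ifs with h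
  · funext x
    simp [cup_apply]
  · simp

/-- The cup product as a bilinear map. -/
def cupL (φ : A →ₗ[k] B →ₗ[k] C) (m n r : ℕ) :
    ((Fin m → G) → A) →ₗ[k] ((Fin n → G) → B) →ₗ[k] ((Fin r → G) → C) :=
  LinearMap.mk₂ k (cupR φ m n r) (cupR_add_left φ m n r) (cupR_smul_left φ m n r)
    (cupR_add_right φ m n r) (cupR_smul_right φ m n r)

theorem cupL_apply (φ : A →ₗ[k] B →ₗ[k] C) (m n r : ℕ) (f : (Fin m → G) → A)
    (g : (Fin n → G) → B) : cupL φ m n r f g = cupR φ m n r f g := rfl

end Cup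

end Fermat.Agent.S55.H62
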