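import Fermat.Agent.S55.H49.LevelDefs
import Fermat.Agent.S55.H62.Cup
import Fermat.Agent.S55.H62.CPairing

/-!
# Cup products of level-constant cochains (package C2 of Program C)

The cup product of level-constant cochains is level-constant; hence an equivariant bilinear map
`φ : A × B → C` induces pairings of complexes
* `lcPairing D φ hφ : lcComplex D A × lcComplex D B → lcComplex D C` (global or local cup product),
* `locPairing … : locComplex A × lcComplex D B → locComplex C` (`(b_v) ∪ c = (b_v ∪ res_v c)`),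
* `ccPairing … : ccComplex A × lcComplex D B → ccComplex C`
  (`(a, b) ∪ c = (a ∪ c, b ∪ res c)`, the pairing of compactly supported cochains with cochains),
and therefore (file `CPairing`) pairings on cohomology, natural and compatible with connecting
homomorphisms.
-/

set_option autoImplicit false

open CategoryTheory groupCohomology

noncomputable section

namespace Fermat.Agent.S55.H62

open Fermat.Agent.S55.H49

variable {G : Type} [Group G] {k : Type} [CommRing k] {A B C : Rep.{0} k G}

/-- The ordered product of a tuple changes by an element of a normal subgroup `U` when the entries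
are multiplied on the right by elements of `U`. -/
theorem tupleProd_mul_mem {U : Subgroup G} (hU : U.Normal) :
    ∀ {m : ℕ} (y s : Fin m → G), (∀ i, s i ∈ U) → (tupleProd y)⁻¹ * tupleProd (y * s) ∈ U := by
  intro m
  induction m with
  | zero =>
    intro y s _
    rw [tupleProd_zero, tupleProd_zero]
    simp
  | succ m ih =>
    intro y s hs
    rw [tupleProd_succ y, tupleProd_succ (y * s)]
    have h1 := ih (fun i => y i.succ) (fun i => s i.succ) fun i => hs _
    have e : (y 0 * tupleProd fun i => y i.succ)⁻¹ *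
        ((y * s) 0 * tupleProd fun i => (y * s) i.succ) =
        ((tupleProd fun i => y i.succ)⁻¹ * s 0 * (tupleProd fun i => y i.succ)) *
          ((tupleProd fun i => y i.succ)⁻¹ *
            tupleProd ((fun i => y i.succ) * fun i => s i.succ)) := by
      have e' : (fun i : Fin m => (y * s) i.succ) = (fun i => y i.succ) * fun i => s i.succ := rfl
      rw [e', Pi.mul_apply]
      group
    rw [e]
    exact U.mul_mem (hU.conj_mem' _ (hs 0) _) h1

theorem IsLCAt_cup {U : Subgroup G} (hU : U.Normal) (φ : A →ₗ[k] B →ₗ[k] C)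
    (hφ : IsEquivariantPairing φ) {m n : ℕ} {f : (Fin m → G) → A} {g : (Fin n → G) → B}
    (hf : IsLCAt U A f) (hg : IsLCAt U B g) : IsLCAt U C (cup φ m n f g) := by
  refine ⟨fun x s hs => ?_, fun x s hs => ?_⟩
  · rw [cup_apply, cup_apply]
    have e1 : tupleFst (m := m) (n := n) (x * s) = tupleFst x * tupleFst s := rfl
    have e2 : tupleSnd (m := m) (n := n) (x * s) = tupleSnd x * tupleSnd s := rfl
    rw [e1, e2, hf.1 (tupleFst x) (tupleFst s) fun i => hs _,
      hg.1 (tupleSnd x) (tupleSnd s) fun i => hs _]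
    have h3 := tupleProd_mul_mem hU (tupleFst (m := m) (n := n) x) (tupleFst s) fun i => hs _
    have e3 : tupleProd (tupleFst (m := m) (n := n) x * tupleFst s) =
        tupleProd (tupleFst (m := m) (n := n) x) *
          ((tupleProd (tupleFst (m := m) (n := n) x))⁻¹ *
            tupleProd (tupleFst (m := m) (n := n) x * tupleFst s)) := by group
    rw [e3, map_mul, Module.End.mul_apply, hg.2 _ _ h3]
  · rw [cup_apply, ← hφ, hf.2 _ _ hs]
    have e : s * tupleProd (tupleFst (m := m) (n := n) x) =
        tupleProd (tupleFst (m := m) (n := n) x) *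
          ((tupleProd (tupleFst (m := m) (n := n) x))⁻¹ * s *
            tupleProd (tupleFst (m := m) (n := n) x)) := by group
    rw [← Module.End.mul_apply, ← map_mul, e, map_mul, Module.End.mul_apply,
      hg.2 _ _ (hU.conj_mem' _ hs _)]

theorem IsLCAt_cupR {U : Subgroup G} (hU : U.Normal) (φ : A →ₗ[k] B →ₗ[k] C)
    (hφ : IsEquivariantPairing φ) {m n : ℕ} (r : ℕ) {f : (Fin m → G) → A} {g : (Fin n → G) → B}
    (hf : IsLCAt U A f) (hg : IsLCAt U B g) : IsLCAt U C (cupR φ m n r f g) := by
  by_cases h : m + n = r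
  · subst h
    rw [cupR_self]
    exact IsLCAt_cup hU φ hφ hf hg
  · unfold cupR
    rw [dif_neg h]
    exact IsLCAt.zero _ _ _

theorem IsLC_cupR {D : LevelDatum G} (φ : A →ₗ[k] B →ₗ[k] C)
    (hφ : IsEquivariantPairing φ) {m n : ℕ} (r : ℕ) {f : (Fin m → G) → A} {g : (Fin n → G) → B}
    (hf : IsLC D A f) (hg : IsLC D B g) : IsLC D C (cupR φ m n r f g) := by
  obtain ⟨F, hF, hN, hf⟩ := hf
  obtain ⟨F', hF', hN', hg⟩ := hg
  exact ⟨F ⊔ F', D.sup hF hF', normal_fixingSubgroup_sup hN hN',
    IsLCAt_cupR (D.sub_normal (normal_fixingSubgroup_sup hN hN')) φ hφ r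
      (hf.mono (D.sub_antitone le_sup_left)) (hg.mono (D.sub_antitone le_sup_right))⟩

/-- The cup product of level-constant cochains, as a bilinear map. -/
def lcCup (D : LevelDatum G) (φ : A →ₗ[k] B →ₗ[k] C) (hφ : IsEquivariantPairing φ)
    (m n r : ℕ) : lcCochains D A m →ₗ[k] lcCochains D B n →ₗ[k] lcCochains D C r :=
  LinearMap.mk₂ k (fun f g => ⟨cupR φ m n r f.1 g.1, IsLC_cupR φ hφ r f.2 g.2⟩)
    (fun f f' g => Subtype.ext (cupR_add_left φ m n r f.1 f'.1 g.1))
    (fun c f g => Subtype.ext (cupR_smul_left φ m n r c f.1 g.1))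
    (fun f g g' => Subtype.ext (cupR_add_right φ m n r f.1 g.1 g'.1))
    (fun c f g => Subtype.ext (cupR_smul_right φ m n r c f.1 g.1))

@[simp]
theorem lcCup_coe (D : LevelDatum G) (φ : A →ₗ[k] B →ₗ[k] C) (hφ : IsEquivariantPairing φ)
    (m n r : ℕ) (f : lcCochains D A m) (g : lcCochains D B n) :
    ((lcCup D φ hφ m n r f g : lcCochains D C r) : (Fin r → G) → C) = cupR φ m n r f.1 g.1 := rfl

/-- The differential of `lcComplex`, on elements. -/
theorem lcComplex_d_apply (D : LevelDatum G) (M : Rep.{0} k G) (n : ℕ) (f : lcCochains D M n) :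
    ((lcComplex D M).d n (n + 1)).hom f = lcD D M n f := by
  have e : (lcComplex D M).d n (n + 1) = ModuleCat.ofHom (lcD D M n) := by
    simp [lcComplex]
  rw [e]
  rfl

/-- The Leibniz rule for the cup product of level-constant cochains. -/
theorem lcD_lcCup (D : LevelDatum G) (φ : A →ₗ[k] B →ₗ[k] C) (hφ : IsEquivariantPairing φ)
    {m n r : ℕ} (h : m + n = r) (x : lcCochains D A m) (y : lcCochains D B n) :
    lcD D C r (lcCup D φ hφ m n r x y) =
      lcCup D φ hφ (m + 1) n (r + 1) (lcD D A m x) y +
        (-1 : k) ^ m • lcCup D φ hφ m (n + 1) (r + 1) x (lcD D B n y) := by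
  apply Subtype.ext
  show (inhomogeneousCochains.d C r).hom (cupR φ m n r x.1 y.1) = _
  rw [d_cupR φ hφ h]
  rfl

/-- **The cup product pairing of complexes of level-constant cochains.** -/
def lcPairing (D : LevelDatum G) (φ : A →ₗ[k] B →ₗ[k] C) (hφ : IsEquivariantPairing φ) :
    CPairing (lcComplex D A) (lcComplex D B) (lcComplex D C) where
  P m n r := lcCup D φ hφ m n r
  leibniz m n r h x y :=
    (lcComplex_d_apply D C r _).trans ((lcD_lcCup D φ hφ h x y).trans
      (congrArg₂ (fun a b => lcCup D φ hφ (m + 1) n (r + 1) a y +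
          (-1 : k) ^ m • lcCup D φ hφ m (n + 1) (r + 1) x b)
        (lcComplex_d_apply D A m x).symm (lcComplex_d_apply D B n y).symm))

theorem lcPairing_P (D : LevelDatum G) (φ : A →ₗ[k] B →ₗ[k] C) (hφ : IsEquivariantPairing φ)
    (m n r : ℕ) (x : lcCochains D A m) (y : lcCochains D B n) :
    (lcPairing D φ hφ).P m n r x y = lcCup D φ hφ m n r x y := rfl

end Fermat.Agent.S55.H62
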