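import Fermat.Agent.S55.H62.RPairing
import Fermat.Agent.S55.H49.ConeApi

/-!
# Route R, package C2: `H3Statement` from the vanishing of `H³` of the level-constant complex

`H3Statement p S` (every level-`S`-constant `3`-cocycle with values in `𝔽_p(χ)`, in the
uncurried conventions, is the coboundary of a level-`S`-constant `2`-cochain) follows from
`H49.HS S (chiRep p) 3 = 0` — the export (S1d) of C9b in the C0 language, for `F = ℚ` — when
`p ∈ S`.
-/

set_option autoImplicit false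

open CategoryTheory groupCohomology ExtCitation

noncomputable section

namespace Fermat.Agent.S55.H62

open Fermat.Agent.S55.H49

local notation "Γ" => (AlgebraicClosure ℚ ≃ₐ[ℚ] AlgebraicClosure ℚ)

/-- An uncurried `3`-cocycle is a cocycle of Mathlib's complex of inhomogeneous cochains. -/
theorem d_eq_zero_of_isCocycle₃ {k G : Type} [CommRing k] [Group G] (A : Rep.{0} k G)
    (c : G × G × G → A) (hc : IsCocycle₃ A c) :
    (inhomogeneousCochains.d A 3).hom (fun g : Fin 3 → G => c (g 0, g 1, g 2)) = 0 := by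
  funext g
  have h := hc (g 0) (g 1) (g 2) (g 3)
  rw [inhomogeneousCochains.d_hom_apply, Fin.sum_univ_four]
  show A.ρ (g 0) (c (g 1, g 2, g 3)) +
    ((-1 : k) ^ (0 + 1) • c (g 0 * g 1, g 2, g 3) + (-1 : k) ^ (1 + 1) • c (g 0, g 1 * g 2, g 3) +
      (-1 : k) ^ (2 + 1) • c (g 0, g 1, g 2 * g 3) + (-1 : k) ^ (3 + 1) • c (g 0, g 1, g 2)) = 0
  rw [← h]
  simp only [zero_add, pow_one, neg_smul, one_smul, pow_succ, pow_zero, one_mul, mul_neg, mul_one,
    neg_neg]
  abel

variable (p : ℕ) [Fact p.Prime] (S : Finset Nat.Primes)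

variable {p S} in
/-- **(S1d) ⟹ `H3Statement`**: if `H³` of the level-constant complex of `𝔽_p(χ)` vanishes and
`𝔽_p(χ)` is trivial on an `S`-level, every level-`S`-constant `3`-cocycle is the coboundary of a
level-`S`-constant `2`-cochain. -/
theorem h3Statement_of_HS (hχ : HasTrivLevel S (chiRep p))
    (h : ∀ x : HS S (chiRep p) 3, x = 0) : H3Statement p S := by
  intro c hc hcoc
  obtain ⟨L, hL, hfix⟩ := hχ
  obtain ⟨F, hF, hcF⟩ := hc
  obtain ⟨F', hF', hle, hF'n, -⟩ := Fermat.Agent.S55.H43.exists_normal_level (hL.sup hF)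
  have hF'L : ∀ s ∈ F'.fixingSubgroup, s ∈ L.fixingSubgroup := fun s hs =>
    IntermediateField.fixingSubgroup_antitone (le_sup_left.trans hle) hs
  have hF'F : ∀ s ∈ F'.fixingSubgroup, s ∈ F.fixingSubgroup := fun s hs =>
    IntermediateField.fixingSubgroup_antitone (le_sup_right.trans hle) hs
  have hc' : IsLC (globalDatum S) (chiRep p) (fun g : Fin 3 → Γ => c (g 0, g 1, g 2)) := by
    refine ⟨F', hF', hF'n, fun g s hs => ?_, fun g s hs => ?_⟩
    · exact hcF (g 0) (g 1) (g 2) (s 0) (s 1) (s 2) (hF'F _ (hs 0)) (hF'F _ (hs 1))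
        (hF'F _ (hs 2))
    · rw [hfix s (hF'L s hs)]
      rfl
  let z₀ : lcCochains (globalDatum S) (chiRep p) 3 := ⟨fun g : Fin 3 → Γ => c (g 0, g 1, g 2), hc'⟩
  let z₁ : (lcComplex (globalDatum S) (chiRep p)).X 3 := z₀
  have hz : z₁ ∈ cyc (lcComplex (globalDatum S) (chiRep p)) 3 := by
    show ((lcComplex (globalDatum S) (chiRep p)).d 3 (3 + 1)).hom z₁ = 0
    have e := lcComplex_d_apply (globalDatum S) (chiRep p) 3 z₀
    refine e.trans ?_
    exact Subtype.ext (d_eq_zero_of_isCocycle₃ (chiRep p) c hcoc)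
  have h0 := h ((cls (lcComplex (globalDatum S) (chiRep p)) 3).hom ⟨z₁, hz⟩)
  obtain ⟨y₁, hy₁⟩ := (cls_eq_zero_iff (lcComplex (globalDatum S) (chiRep p)) 2 ⟨z₁, hz⟩).1 h0
  let y' : lcCochains (globalDatum S) (chiRep p) 2 := y₁
  have hy' : lcD (globalDatum S) (chiRep p) 2 y' = z₀ :=
    (lcComplex_d_apply (globalDatum S) (chiRep p) 2 y').symm.trans hy₁
  have hy'' : (inhomogeneousCochains.d (chiRep p) 2).hom (y' : (Fin 2 → Γ) → chiRep p) =
      fun g : Fin 3 → Γ => c (g 0, g 1, g 2) := congrArg Subtype.val hy'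
  refine ⟨(cochainsIso₂ (chiRep p)).hom (y' : (Fin 2 → Γ) → chiRep p), ?_, ?_⟩
  · obtain ⟨F₂, hF₂, -, h1, -⟩ := y'.2
    refine ⟨F₂, hF₂, fun g g' s s' hs hs' => ?_⟩
    have h2 := h1 ((piFinTwoEquiv fun _ => Γ).symm (g, g')) ((piFinTwoEquiv fun _ => Γ).symm (s, s'))
      (by
        intro i
        fin_cases i
        · exact hs
        · exact hs')
    have e : ((piFinTwoEquiv fun _ => Γ).symm (g, g')) * ((piFinTwoEquiv fun _ => Γ).symm (s, s')) =
        (piFinTwoEquiv fun _ => Γ).symm (g * s, g' * s') := by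
      funext i
      fin_cases i <;> rfl
    rw [e] at h2
    exact h2
  · have key := congrArg (fun f => f.hom (y' : (Fin 2 → Γ) → chiRep p))
      (comp_d₂₃_eq (chiRep p))
    have key' : (d₂₃ (chiRep p)).hom ((cochainsIso₂ (chiRep p)).hom
        (y' : (Fin 2 → Γ) → chiRep p)) =
        (cochainsIso₃ (chiRep p)).hom (((inhomogeneousCochains (chiRep p)).d 2 3).hom
          (y' : (Fin 2 → Γ) → chiRep p)) := key
    rw [key', inhomogeneousCochains.d_def, hy'']
    rfl

variable {p S} in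
/-- `𝔽_p(χ)` is trivial on an `S`-level when `p ∈ S`. -/
theorem hasTrivLevel_chiRep (hpS : pPrime p ∈ S) : HasTrivLevel S (chiRep p) := by
  obtain ⟨L, hL, -, -, hχ, -⟩ := Fermat.Agent.S55.H43.exists_level_trivial_both S hpS
    (Rep.trivial (ZMod p) Γ (ZMod p))
    (fun _ => ⟨⊥, inferInstance, fun _ _ => rfl⟩) (fun _ _ _ _ _ _ => rfl)
  refine ⟨L, hL, fun s hs => ?_⟩
  refine LinearMap.ext fun a => ?_
  show ((cycloChar p s : (ZMod p)ˣ) : ZMod p) • a = a
  rw [hχ s hs, Units.val_one, one_smul]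

variable {p S} in
/-- **(S1d) ⟹ `H3Statement`** for `p ∈ S`. -/
theorem h3Statement_of_HS_of_mem (hpS : pPrime p ∈ S)
    (h : ∀ x : HS S (chiRep p) 3, x = 0) : H3Statement p S :=
  h3Statement_of_HS (hasTrivLevel_chiRep hpS) h

end Fermat.Agent.S55.H62
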