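import Fermat.Agent.S55.H62.RFormulaC
import Fermat.Agent.S55.H62.RH3Bridge
import Fermat.Agent.S55.H12.H3Coind

/-!
# Route R, package C2: `H3Statement` from the CD leaves, and S55 from `inv`, (K1) and (SH)

* `isAdm_chiRep`: `𝔽_p(χ)` is admissible (`p ∈ S`);
* `h3Statement_of_vanishing`: `H12.H3VanishingStatement p S → H3Statement p S`;
* `s55_of_inv_k1`: the conclusion of the frozen S55 from a family `inv` of local invariant maps
  with reciprocity and local injectivity, (K1) + Shapiro injectivity in degree 3 (which give both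
  `H3Statement` and (CD)), and the leaves (EX), (HASSE), (COUNT).
-/

set_option autoImplicit false

open CategoryTheory groupCohomology ExtCitation

noncomputable section

namespace Fermat.Agent.S55.H62

open Fermat.Agent.S55.H70 Fermat.Agent.S55.H12 Fermat.Agent.S55.H87 Fermat.Agent.S55.H43

local notation "Γ" => (AlgebraicClosure ℚ ≃ₐ[ℚ] AlgebraicClosure ℚ)

variable {p : ℕ} [Fact p.Prime] {S : Finset Nat.Primes}

/-- `𝔽_p(χ)` is an admissible module when `p ∈ S`. -/
theorem isAdm_chiRep (hpS : pPrime p ∈ S) : IsAdm p S (chiRep p) := by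
  obtain ⟨L, hL, hfix⟩ := hasTrivLevel_chiRep (p := p) hpS
  refine ⟨inferInstanceAs (FiniteDimensional (ZMod p) (ZMod p)), fun m => ⟨L, hL.1, fun s hs => ?_⟩,
    fun q hq A hA g hg => ?_⟩
  · rw [hfix s hs]
    rfl
  · have hqp : (q : ℕ) ≠ p := by
      intro h
      apply hq
      have e : q = pPrime p := Subtype.ext h
      rw [e]
      exact hpS
    refine LinearMap.ext fun a => ?_
    show ((cycloChar p g : (ZMod p)ˣ) : ZMod p) • a = a
    rw [Fermat.Agent.S29.H81.cycloChar_of_mem_inertia q.2 hqp A hA hg, Units.val_one, one_smul]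

/-- `H3Statement` from the vanishing of `H³(G_S, K)` for admissible `K` (leaf (CD2) of C10). -/
theorem h3Statement_of_vanishing (hpS : pPrime p ∈ S) (h : H3VanishingStatement p S) :
    H3Statement p S :=
  h3Statement_of_HS_of_mem hpS (h (chiRep p) (isAdm_chiRep hpS))

/-- **S55 from `inv`, (K1) and (SH)**: a family of local invariant maps with reciprocity and
local injectivity; (K1) and Shapiro injectivity in degree 3; (EX), (HASSE), (COUNT). -/
theorem s55_of_inv_k1 (hp2 : p ≠ 2) (hpS : pPrime p ∈ S) (inv : LocalInv p S)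
    (hsh : Fermat.Agent.S55.H99.ShInjStatement 3) (hk1 : K1Statement p S)
    (hREC : RECStatement p S inv) (hL : LocalInjP S inv)
    (hex : ∀ hH3 : H3Statement p S, ExStatement (rPackage S (rpairing p S inv)))
    (c : IntermediateField ℚ (AlgebraicClosure ℚ) → ℕ)
    (hH : HasseStatement p S c) (hC : CountStatement p S c)
    (M : Rep (ZMod p) (AlgebraicClosure ℚ ≃ₐ[ℚ] AlgebraicClosure ℚ))
    [FiniteDimensional (ZMod p) M]
    (hsm : ∀ m : M, ∃ F : IntermediateField ℚ (AlgebraicClosure ℚ), FiniteDimensional ℚ F ∧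
      ∀ s ∈ F.fixingSubgroup, M.ρ s m = m)
    (hMur : ∀ q : Nat.Primes, q ∉ S → ∀ A : ValuationSubring (AlgebraicClosure ℚ),
      A.LiesOverPrime (q : ℕ) → ∀ g ∈ A.inertiaSubgroupIn ℚ, M.ρ g = 1) :
    ∃ B : sha₁ S (M.dualTwist (cycloChar p)) →ₗ[ZMod p] sha₂ S M →ₗ[ZMod p] ZMod p,
      (∀ y, (∀ x, B y x = 0) → y = 0) ∧ (∀ x, (∀ y, B y x = 0) → x = 0) :=
  have hH3 : H3Statement p S := h3Statement_of_vanishing hpS (h3Vanishing_of_k1 hpS hsh hk1)
  s55_of_inv hp2 hpS inv hH3 hREC hL (fun π hF _ hπ => h2Surj_of_k1 hpS hsh hk1 π hF hπ)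
    (hex hH3) c hH hC M hsm hMur

end Fermat.Agent.S55.H62
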