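import Fermat.Agent.S55.H62.CupConeLeibniz
import Fermat.Prelude.Def_GroupCohomology_ContinuousUnramified

/-!
# C2 specification: the pairings consumed by the top chain of Program C (S55)

Objects for `PTPackage` (`H70/Chain.lean`): the Tate twist `chiRep p`, the evaluation pairing
`X × X' → 𝔽_p(χ)`, the cone pairing `H^i_c(X) × H^j(X') → H^{i+j}_c(𝔽_p(χ))`, the pairing
`pairOf tr i j X` obtained from a trace `tr : H^3_c(𝔽_p(χ)) → 𝔽_p`, the biduality map on `H²`.
-/

set_option autoImplicit false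

open CategoryTheory groupCohomology ExtCitation

noncomputable section

namespace Fermat.Agent.S55.H62

open Fermat.Agent.S55.H49

variable (p : ℕ) [Fact p.Prime]

/-- The one-dimensional representation `𝔽_p(χ)`, `χ` the mod `p` cyclotomic character. -/
abbrev chiRep : Rep.{0} (ZMod p) GQ := (Rep.trivial (ZMod p) GQ (ZMod p)).twist (cycloChar p)

/-- The Tate dual `X' = X^∨(1)`. -/
abbrev tateDual (X : Rep.{0} (ZMod p) GQ) : Rep.{0} (ZMod p) GQ := X.dualTwist (cycloChar p)

/-- The evaluation pairing `X × X' → 𝔽_p(χ)`, `(x, f) ↦ f x`. -/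
def evPairing (X : Rep.{0} (ZMod p) GQ) :
    X →ₗ[ZMod p] (tateDual p X) →ₗ[ZMod p] (chiRep p) :=
  Module.Dual.eval (ZMod p) X

theorem evPairing_apply (X : Rep.{0} (ZMod p) GQ) (x : X) (f : Module.Dual (ZMod p) X) :
    evPairing p X x f = f x := rfl

theorem evPairing_equivariant (X : Rep.{0} (ZMod p) GQ) : IsEquivariantPairing (evPairing p X) := by
  intro g x f
  show ((tateDual p X).ρ g f) (X.ρ g x) = (chiRep p).ρ g (f x)
  rw [Rep.dualTwist_ρ_apply]
  show ((cycloChar p g : ZMod p)) • f (X.ρ g⁻¹ (X.ρ g x)) = ((cycloChar p g : ZMod p)) • f x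
  rw [← Module.End.mul_apply, ← map_mul, inv_mul_cancel, map_one, Module.End.one_apply]

/-- The biduality morphism `X → X''`. -/
def bidualHom (X : Rep.{0} (ZMod p) GQ) : X ⟶ tateDual p (tateDual p X) :=
  Rep.ofHom (ρ := X.ρ) (σ := (tateDual p (tateDual p X)).ρ)
    { toLinearMap := Module.Dual.eval (ZMod p) X
      isIntertwining' := fun g => LinearMap.ext fun x => LinearMap.ext fun f => by
        show f (X.ρ g x) = ((tateDual p (tateDual p X)).ρ g (Module.Dual.eval (ZMod p) X x)) f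
        rw [Rep.dualTwist_ρ_apply]
        show f (X.ρ g x) = ((cycloChar p g : ZMod p)) • ((tateDual p X).ρ g⁻¹ f) x
        rw [Rep.dualTwist_ρ_apply]
        show f (X.ρ g x) = ((cycloChar p g : ZMod p)) •
          (((cycloChar p g⁻¹ : (ZMod p)ˣ) : ZMod p) • f (X.ρ g⁻¹⁻¹ x))
        rw [inv_inv, smul_smul, ← Units.val_mul, ← map_mul, mul_inv_cancel, map_one,
          Units.val_one, one_smul] }

theorem bidualHom_apply (X : Rep.{0} (ZMod p) GQ) (x : X) (f : Module.Dual (ZMod p) X) :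
    (bidualHom p X).hom x f = f x := rfl

variable (S : Finset Nat.Primes)

/-- The cone pairing of complexes `Cc(X) × C(X') → Cc(𝔽_p(χ))`. -/
def ccPairingS (X : Rep.{0} (ZMod p) GQ) :
    CPairing (ccComplex (primeDatum S) (globalDatum S) (primeHom S) X)
      (lcComplex (globalDatum S) (tateDual p X))
      (ccComplex (primeDatum S) (globalDatum S) (primeHom S) (chiRep p)) :=
  ccPairing (primeDatum S) (globalDatum S) (primeHom S) (evPairing p X) (evPairing_equivariant p X)

/-- The cone pairing on cohomology `H^i_c(X) × H^j(X') → H^r_c(𝔽_p(χ))`, `i + j = r`. -/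
def conePair (X : Rep.{0} (ZMod p) GQ) (i j r : ℕ) (h : i + j = r) :
    HcS S X i →ₗ[ZMod p] HS S (tateDual p X) j →ₗ[ZMod p] HcS S (chiRep p) r :=
  (ccPairingS p S X).H i j r h

/-- The pairing `H^i_c(X) × H^j(X') → 𝔽_p` attached to a trace `tr : H^3_c(𝔽_p(χ)) → 𝔽_p`
(zero unless `i + j = 3`). -/
def pairOf (tr : HcS S (chiRep p) 3 →ₗ[ZMod p] ZMod p) (i j : ℕ) (X : Rep.{0} (ZMod p) GQ) :
    HcS S X i →ₗ[ZMod p] HS S (tateDual p X) j →ₗ[ZMod p] ZMod p :=
  if h : i + j = 3 then (conePair p S X i j 3 h).compr₂ tr else 0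

/-- The map induced on `H²` by biduality. -/
def bidualMap (X : Rep.{0} (ZMod p) GQ) :
    HS S X 2 →ₗ[ZMod p] HS S (tateDual p (tateDual p X)) 2 :=
  (HomologicalComplex.homologyMap (lcMapCoeff (globalDatum S) (bidualHom p X)) 2).hom

/-- The forget-supports map, as a linear map. -/
def forgetMap (X : Rep.{0} (ZMod p) GQ) (i : ℕ) : HcS S X i →ₗ[ZMod p] HS S X i :=
  (jS S X i).hom

/-- (C2 leaf ADJ) Adjointness on `H²_c(M) × H¹_c(M')`, with sign `+`:
`⟨x, j' y⟩ = ⟨y, ε_* j x⟩` already in `H³_c(𝔽_p(χ))`. -/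
def AdjointStatement : Prop :=
  ∀ (M : Rep.{0} (ZMod p) GQ) (x : HcS S M 2) (y : HcS S (tateDual p M) 1),
    conePair p S M 2 1 3 rfl x (forgetMap p S (tateDual p M) 1 y) =
      conePair p S (tateDual p M) 1 2 3 rfl y (bidualMap p S M (forgetMap p S M 2 x))

/-- (C2 leaf) Biduality is injective on `H²` for finite-dimensional modules. -/
def BidualInjStatement : Prop :=
  ∀ M : Rep.{0} (ZMod p) GQ, FiniteDimensional (ZMod p) M → Function.Injective (bidualMap p S M)

/-- The adjointness in the shape of `PTPackage.Adjoint` (with `u = 1`), for any trace. -/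
theorem pairOf_adjoint (hadj : AdjointStatement p S) (tr : HcS S (chiRep p) 3 →ₗ[ZMod p] ZMod p)
    (M : Rep.{0} (ZMod p) GQ) (x : HcS S M 2) (y : HcS S (tateDual p M) 1) :
    pairOf p S tr 2 1 M x (forgetMap p S (tateDual p M) 1 y) =
      pairOf p S tr 1 2 (tateDual p M) y (bidualMap p S M (forgetMap p S M 2 x)) := by
  unfold pairOf
  rw [dif_pos rfl, dif_pos rfl, LinearMap.compr₂_apply, LinearMap.compr₂_apply, hadj M x y]

end Fermat.Agent.S55.H62
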