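import Fermat.Agent.S55.H62.Cup

/-!
# Low-degree cup products in Mathlib's uncurried conventions (package C2 of Program C, Route R)

For `k`-linear `G`-representations `A`, `B`, `C` and an equivariant bilinear map
`φ : A → B → C`, the cup products in bidegrees `(2,1)`, `(2,0)`, `(1,1)`, `(1,0)` on cochains
`G × G → A`, `G → A` (the conventions of `groupCohomology.d₀₁`, `d₁₂`, `d₂₃`), with their Leibniz
rules.  Mathlib only.
-/

set_option autoImplicit false

open groupCohomology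

namespace Fermat.Agent.S55.H62

universe u

variable {k G : Type u} [CommRing k] [Group G] {A B C : Rep.{u} k G}

/-- The cup product of a `2`-cochain and a `1`-cochain. -/
def cup21 (φ : A →ₗ[k] B →ₗ[k] C) (x : G × G → A) (n : G → B) : G × G × G → C :=
  fun g => φ (x (g.1, g.2.1)) (B.ρ (g.1 * g.2.1) (n g.2.2))

/-- The cup product of a `2`-cochain and a `0`-cochain. -/
def cup20 (φ : A →ₗ[k] B →ₗ[k] C) (x : G × G → A) (m : B) : G × G → C :=
  fun g => φ (x (g.1, g.2)) (B.ρ (g.1 * g.2) m)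

/-- The cup product of a `1`-cochain and a `1`-cochain. -/
def cup11 (φ : A →ₗ[k] B →ₗ[k] C) (w : G → A) (n : G → B) : G × G → C :=
  fun g => φ (w g.1) (B.ρ g.1 (n g.2))

/-- The cup product of a `1`-cochain and a `0`-cochain. -/
def cup10 (φ : A →ₗ[k] B →ₗ[k] C) (w : G → A) (m : B) : G → C :=
  fun g => φ (w g) (B.ρ g m)

/-- The explicit `3`-cocycle condition. -/
def IsCocycle₃ (C : Rep.{u} k G) (c : G × G × G → C) : Prop :=
  ∀ g₁ g₂ g₃ g₄ : G, C.ρ g₁ (c (g₂, g₃, g₄)) - c (g₁ * g₂, g₃, g₄) + c (g₁, g₂ * g₃, g₄) -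
    c (g₁, g₂, g₃ * g₄) + c (g₁, g₂, g₃) = 0

section Bilinear

variable (φ : A →ₗ[k] B →ₗ[k] C)

theorem cup21_add_left (x x' : G × G → A) (n : G → B) :
    cup21 φ (x + x') n = cup21 φ x n + cup21 φ x' n := by
  funext g
  simp [cup21]

theorem cup21_smul_left (c : k) (x : G × G → A) (n : G → B) :
    cup21 φ (c • x) n = c • cup21 φ x n := by
  funext g
  simp [cup21]

theorem cup21_add_right (x : G × G → A) (n n' : G → B) :
    cup21 φ x (n + n') = cup21 φ x n + cup21 φ x n' := by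
  funext g
  simp [cup21]

theorem cup21_smul_right (c : k) (x : G × G → A) (n : G → B) :
    cup21 φ x (c • n) = c • cup21 φ x n := by
  funext g
  simp [cup21]

theorem cup21_zero_right (x : G × G → A) : cup21 φ x (0 : G → B) = 0 := by
  funext g
  simp [cup21]

theorem cup20_add_left (x x' : G × G → A) (m : B) :
    cup20 φ (x + x') m = cup20 φ x m + cup20 φ x' m := by
  funext g
  simp [cup20]

theorem cup20_smul_left (c : k) (x : G × G → A) (m : B) :
    cup20 φ (c • x) m = c • cup20 φ x m := by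
  funext g
  simp [cup20]

theorem cup20_add_right (x : G × G → A) (m m' : B) :
    cup20 φ x (m + m') = cup20 φ x m + cup20 φ x m' := by
  funext g
  simp [cup20]

theorem cup20_smul_right (c : k) (x : G × G → A) (m : B) :
    cup20 φ x (c • m) = c • cup20 φ x m := by
  funext g
  simp [cup20]

end Bilinear

variable {φ : A →ₗ[k] B →ₗ[k] C}

/-- `d (x ∪ m) = x ∪ d m` for a `2`-cocycle `x` and `m : B`. -/
theorem d₂₃_cup20 (hφ : IsEquivariantPairing φ) {x : G × G → A} (hx : x ∈ cocycles₂ A) (m : B) :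
    (d₂₃ C).hom (cup20 φ x m) = cup21 φ x ((d₀₁ B).hom m) := by
  have hφ' : ∀ (g : G) (a : A) (b : B), C.ρ g (φ a b) = φ (A.ρ g a) (B.ρ g b) :=
    fun g a b => (hφ g a b).symm
  funext ⟨g₁, g₂, g₃⟩
  have hc := (mem_cocycles₂_def x).1 hx g₁ g₂ g₃
  have e : A.ρ g₁ (x (g₂, g₃)) = x (g₁ * g₂, g₃) - x (g₁, g₂ * g₃) + x (g₁, g₂) := by
    refine sub_eq_zero.1 ?_
    rw [← hc]; abel
  simp only [d₂₃_hom_apply, cup20, cup21, d₀₁_hom_apply, hφ', map_sub, e]
  simp only [← Module.End.mul_apply, ← map_mul, map_sub, map_add, LinearMap.sub_apply,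
    LinearMap.add_apply, mul_assoc]
  abel

/-- `d (w ∪ n) = d w ∪ n` for a `1`-cochain `w` and a `1`-cocycle `n`. -/
theorem d₂₃_cup11 (hφ : IsEquivariantPairing φ) (w : G → A) {n : G → B} (hn : n ∈ cocycles₁ B) :
    (d₂₃ C).hom (cup11 φ w n) = cup21 φ ((d₁₂ A).hom w) n := by
  have hφ' : ∀ (g : G) (a : A) (b : B), C.ρ g (φ a b) = φ (A.ρ g a) (B.ρ g b) :=
    fun g a b => (hφ g a b).symm
  funext ⟨g₁, g₂, g₃⟩
  have hc := (mem_cocycles₁_iff n).1 hn g₂ g₃
  simp only [d₂₃_hom_apply, cup11, cup21, d₁₂_hom_apply, hφ', hc, map_add]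
  simp only [← Module.End.mul_apply, ← map_mul, map_sub, map_add, LinearMap.sub_apply,
    LinearMap.add_apply, mul_assoc]
  abel

/-- `d (w ∪ m) = d w ∪ m - w ∪ d m`. -/
theorem d₁₂_cup10 (hφ : IsEquivariantPairing φ) (w : G → A) (m : B) :
    (d₁₂ C).hom (cup10 φ w m) = cup20 φ ((d₁₂ A).hom w) m - cup11 φ w ((d₀₁ B).hom m) := by
  have hφ' : ∀ (g : G) (a : A) (b : B), C.ρ g (φ a b) = φ (A.ρ g a) (B.ρ g b) :=
    fun g a b => (hφ g a b).symm
  funext ⟨g₁, g₂⟩
  simp only [d₁₂_hom_apply, cup10, cup20, cup11, d₀₁_hom_apply, hφ', Pi.sub_apply, map_sub]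
  simp only [← Module.End.mul_apply, ← map_mul, map_sub, map_add, LinearMap.sub_apply,
    LinearMap.add_apply, mul_assoc]
  abel

/-- The cup product of a `2`-cocycle and a `1`-cocycle is a `3`-cocycle. -/
theorem isCocycle₃_cup21 (hφ : IsEquivariantPairing φ) {x : G × G → A} (hx : x ∈ cocycles₂ A)
    {n : G → B} (hn : n ∈ cocycles₁ B) : IsCocycle₃ C (cup21 φ x n) := by
  have hφ' : ∀ (g : G) (a : A) (b : B), C.ρ g (φ a b) = φ (A.ρ g a) (B.ρ g b) :=
    fun g a b => (hφ g a b).symm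
  intro g₁ g₂ g₃ g₄
  have hc := (mem_cocycles₂_def x).1 hx g₁ g₂ g₃
  have hn' := (mem_cocycles₁_iff n).1 hn g₃ g₄
  have e : A.ρ g₁ (x (g₂, g₃)) = x (g₁ * g₂, g₃) - x (g₁, g₂ * g₃) + x (g₁, g₂) := by
    refine sub_eq_zero.1 ?_
    rw [← hc]; abel
  simp only [cup21, hφ', hn', map_add, e]
  simp only [← Module.End.mul_apply, ← map_mul, map_sub, map_add, LinearMap.sub_apply,
    LinearMap.add_apply, mul_assoc]
  abel

end Fermat.Agent.S55.H62
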