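import Fermat.Agent.S55.H43.Hc1
import Fermat.Agent.S55.H43.H2S
import Fermat.Agent.S55.H62.LowCup
import Fermat.Agent.S55.H62.CupSpec

/-!
# Route R, package C2: level constancy of the low-degree cup products, local classes

* `HasTrivLevel S N`: the action on `N` is trivial on the fixing subgroup of a level unramified
  outside `S`;
* `IsLevelConstantS₃`: level-`S`-constant `3`-cochains;
* level constancy of `cup21`, `cup20`, `cup11`, `cup10`;
* `res₂ S q u`: the restriction of a `2`-cochain to the local Galois group at `q ∈ S`;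
* `locClass p S q u`: the class in the Prelude's `continuousH2` of a local level `2`-cocycle
  with values in `𝔽_p(χ)` (and `0` if `u` is not a level cocycle).
-/

set_option autoImplicit false

open CategoryTheory groupCohomology ExtCitation

noncomputable section

namespace Fermat.Agent.S55.H62

local notation "Γ" => (AlgebraicClosure ℚ ≃ₐ[ℚ] AlgebraicClosure ℚ)

section Level

variable {k : Type} [CommRing k] (S : Finset Nat.Primes)

/-- The action on `N` is trivial on the fixing subgroup of a level unramified outside `S`. -/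
def HasTrivLevel (N : Rep.{0, 0, 0} k Γ) : Prop :=
  ∃ L : IntermediateField ℚ (AlgebraicClosure ℚ), L.IsUnramifiedOutside S ∧
    ∀ s ∈ L.fixingSubgroup, N.ρ s = 1

/-- Level-`S`-constant `3`-cochains. -/
def IsLevelConstantS₃ {X : Type*} (f : Γ × Γ × Γ → X) : Prop :=
  ∃ F : IntermediateField ℚ (AlgebraicClosure ℚ), F.IsUnramifiedOutside S ∧
    ∀ g g' g'' s s' s'', s ∈ F.fixingSubgroup → s' ∈ F.fixingSubgroup → s'' ∈ F.fixingSubgroup →
      f (g * s, g' * s', g'' * s'') = f (g, g', g'')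

variable {S}

theorem isLevelConstantS₂_sub {X : Type*} [AddGroup X] {f f' : Γ × Γ → X}
    (hf : IsLevelConstantS₂ S f) (hf' : IsLevelConstantS₂ S f') : IsLevelConstantS₂ S (f - f') := by
  obtain ⟨F, hF, h⟩ := hf
  obtain ⟨F', hF', h'⟩ := hf'
  refine ⟨F ⊔ F', hF.sup hF', fun g g' s s' hs hs' => ?_⟩
  simp only [Pi.sub_apply]
  rw [h g g' s s' (IntermediateField.fixingSubgroup_antitone le_sup_left hs)
      (IntermediateField.fixingSubgroup_antitone le_sup_left hs'),
    h' g g' s s' (IntermediateField.fixingSubgroup_antitone le_sup_right hs)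
      (IntermediateField.fixingSubgroup_antitone le_sup_right hs')]

variable {A B C : Rep.{0, 0, 0} k Γ} (φ : A →ₗ[k] B →ₗ[k] C)

theorem ρ_mul_of_eq_one {s : Γ} (hs : B.ρ s = 1) (g : Γ) : B.ρ (g * s) = B.ρ g := by
  rw [map_mul, hs, mul_one]

theorem isLevelConstantS₃_cup21 (hB : HasTrivLevel S B) {x : Γ × Γ → A}
    (hx : IsLevelConstantS₂ S x) {n : Γ → B} (hn : IsLevelConstantS₁ S n) :
    IsLevelConstantS₃ S (cup21 φ x n) := by
  obtain ⟨L, hL, hfix⟩ := hB
  obtain ⟨F, hF, h⟩ := hx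
  obtain ⟨F', hF', h'⟩ := hn
  refine ⟨L ⊔ (F ⊔ F'), hL.sup (hF.sup hF'), fun g g' g'' s s' s'' hs hs' hs'' => ?_⟩
  have hsL : ∀ t ∈ (L ⊔ (F ⊔ F')).fixingSubgroup, t ∈ L.fixingSubgroup := fun t ht =>
    IntermediateField.fixingSubgroup_antitone le_sup_left ht
  have hsF : ∀ t ∈ (L ⊔ (F ⊔ F')).fixingSubgroup, t ∈ F.fixingSubgroup := fun t ht =>
    IntermediateField.fixingSubgroup_antitone (le_sup_left.trans le_sup_right) ht
  have hsF' : ∀ t ∈ (L ⊔ (F ⊔ F')).fixingSubgroup, t ∈ F'.fixingSubgroup := fun t ht =>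
    IntermediateField.fixingSubgroup_antitone (le_sup_right.trans le_sup_right) ht
  show φ (x (g * s, g' * s')) (B.ρ (g * s * (g' * s')) (n (g'' * s''))) =
    φ (x (g, g')) (B.ρ (g * g') (n g''))
  rw [h g g' s s' (hsF s hs) (hsF s' hs'), h' g'' s'' (hsF' s'' hs''), map_mul, map_mul (B.ρ) g g',
    ρ_mul_of_eq_one (hfix s (hsL s hs)), ρ_mul_of_eq_one (hfix s' (hsL s' hs'))]

theorem isLevelConstantS₂_cup20 (hB : HasTrivLevel S B) {x : Γ × Γ → A}
    (hx : IsLevelConstantS₂ S x) (m : B) : IsLevelConstantS₂ S (cup20 φ x m) := by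
  obtain ⟨L, hL, hfix⟩ := hB
  obtain ⟨F, hF, h⟩ := hx
  refine ⟨L ⊔ F, hL.sup hF, fun g g' s s' hs hs' => ?_⟩
  have hsL : ∀ t ∈ (L ⊔ F).fixingSubgroup, t ∈ L.fixingSubgroup := fun t ht =>
    IntermediateField.fixingSubgroup_antitone le_sup_left ht
  have hsF : ∀ t ∈ (L ⊔ F).fixingSubgroup, t ∈ F.fixingSubgroup := fun t ht =>
    IntermediateField.fixingSubgroup_antitone le_sup_right ht
  show φ (x (g * s, g' * s')) (B.ρ (g * s * (g' * s')) m) = φ (x (g, g')) (B.ρ (g * g') m)
  rw [h g g' s s' (hsF s hs) (hsF s' hs'), map_mul, map_mul (B.ρ) g g',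
    ρ_mul_of_eq_one (hfix s (hsL s hs)), ρ_mul_of_eq_one (hfix s' (hsL s' hs'))]

theorem isLevelConstantS₂_cup11 (hB : HasTrivLevel S B) {w : Γ → A}
    (hw : IsLevelConstantS₁ S w) {n : Γ → B} (hn : IsLevelConstantS₁ S n) :
    IsLevelConstantS₂ S (cup11 φ w n) := by
  obtain ⟨L, hL, hfix⟩ := hB
  obtain ⟨F, hF, h⟩ := hw
  obtain ⟨F', hF', h'⟩ := hn
  refine ⟨L ⊔ (F ⊔ F'), hL.sup (hF.sup hF'), fun g g' s s' hs hs' => ?_⟩
  have hsL : ∀ t ∈ (L ⊔ (F ⊔ F')).fixingSubgroup, t ∈ L.fixingSubgroup := fun t ht =>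
    IntermediateField.fixingSubgroup_antitone le_sup_left ht
  have hsF : ∀ t ∈ (L ⊔ (F ⊔ F')).fixingSubgroup, t ∈ F.fixingSubgroup := fun t ht =>
    IntermediateField.fixingSubgroup_antitone (le_sup_left.trans le_sup_right) ht
  have hsF' : ∀ t ∈ (L ⊔ (F ⊔ F')).fixingSubgroup, t ∈ F'.fixingSubgroup := fun t ht =>
    IntermediateField.fixingSubgroup_antitone (le_sup_right.trans le_sup_right) ht
  show φ (w (g * s)) (B.ρ (g * s) (n (g' * s'))) = φ (w g) (B.ρ g (n g'))
  rw [h g s (hsF s hs), h' g' s' (hsF' s' hs'), ρ_mul_of_eq_one (hfix s (hsL s hs))]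

theorem isLevelConstantS₁_cup10 (hB : HasTrivLevel S B) {w : Γ → A}
    (hw : IsLevelConstantS₁ S w) (m : B) : IsLevelConstantS₁ S (cup10 φ w m) := by
  obtain ⟨L, hL, hfix⟩ := hB
  obtain ⟨F, hF, h⟩ := hw
  refine ⟨L ⊔ F, hL.sup hF, fun g s hs => ?_⟩
  have hsL : ∀ t ∈ (L ⊔ F).fixingSubgroup, t ∈ L.fixingSubgroup := fun t ht =>
    IntermediateField.fixingSubgroup_antitone le_sup_left ht
  have hsF : ∀ t ∈ (L ⊔ F).fixingSubgroup, t ∈ F.fixingSubgroup := fun t ht =>
    IntermediateField.fixingSubgroup_antitone le_sup_right ht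
  show φ (w (g * s)) (B.ρ (g * s) m) = φ (w g) (B.ρ g m)
  rw [h g s (hsF s hs), ρ_mul_of_eq_one (hfix s (hsL s hs))]

end Level

section Local

variable (p : ℕ) [Fact p.Prime] (S : Finset Nat.Primes)

/-- The restriction of a `2`-cochain to the local Galois group at `q ∈ S`. -/
def res₂ (q : ↥S) {X : Type*} (u : Γ × Γ → X) :
    primeLocalGaloisGroup q.1 × primeLocalGaloisGroup q.1 → X :=
  fun gh => u (primeLocalToGlobal q.1 gh.1, primeLocalToGlobal q.1 gh.2)

/-- The restriction of a `1`-cochain to the local Galois group at `q ∈ S`. -/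
def res₁ (q : ↥S) {X : Type*} (u : Γ → X) : primeLocalGaloisGroup q.1 → X :=
  fun g => u (primeLocalToGlobal q.1 g)

variable {S} in
theorem isLevelConstant₂_res₂ (q : ↥S) {X : Type*} {u : Γ × Γ → X} (hu : IsLevelConstantS₂ S u) :
    IsLevelConstant₂ (primeLocalToGlobal q.1) (res₂ S q u) :=
  IsLevelConstant₂.precomp (rH := MonoidHom.id _) (primeLocalToGlobal q.1) (fun _ => rfl)
    hu.isLevelConstant₂

variable {S} in
theorem isLevelConstant₁_res₁ (q : ↥S) {X : Type*} {u : Γ → X} (hu : IsLevelConstantS₁ S u) :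
    IsLevelConstant₁ (primeLocalToGlobal q.1) (res₁ S q u) :=
  IsLevelConstant₁.precomp (rH := MonoidHom.id _) (primeLocalToGlobal q.1) (fun _ => rfl)
    hu.isLevelConstant₁

/-- The restriction of `𝔽_p(χ)` to the local Galois group at `q ∈ S`. -/
abbrev chiLoc (q : ↥S) : Rep.{0, 0, 0} (ZMod p) (primeLocalGaloisGroup q.1) :=
  Rep.res (primeLocalToGlobal q.1) (chiRep p)

/-- `H²(G_q, 𝔽_p(χ))` (the Prelude's `continuousH2`). -/
abbrev H2loc (q : ↥S) : Type :=
  continuousH2 (primeLocalToGlobal q.1) (chiLoc p S q)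

/-- A family of local invariant maps `inv_q : H²(G_q, 𝔽_p(χ)) → 𝔽_p`, `q ∈ S`. -/
abbrev LocalInv : Type := ∀ q : ↥S, H2loc p S q →ₗ[ZMod p] ZMod p

/-- The class of a local level `2`-cocycle (`0` if the cochain is not a level cocycle). -/
def locClass (q : ↥S)
    (u : primeLocalGaloisGroup q.1 × primeLocalGaloisGroup q.1 → chiLoc p S q) : H2loc p S q :=
  open Classical in
  if h : u ∈ levelCocycles₂ (primeLocalToGlobal q.1) (chiLoc p S q) then
    continuousH2π (primeLocalToGlobal q.1) (chiLoc p S q) ⟨u, h⟩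
  else 0

variable {p S}

theorem locClass_of_mem (q : ↥S)
    {u : primeLocalGaloisGroup q.1 × primeLocalGaloisGroup q.1 → chiLoc p S q}
    (h : u ∈ levelCocycles₂ (primeLocalToGlobal q.1) (chiLoc p S q)) :
    locClass p S q u = continuousH2π (primeLocalToGlobal q.1) (chiLoc p S q) ⟨u, h⟩ :=
  dif_pos h

theorem locClass_add (q : ↥S)
    {u u' : primeLocalGaloisGroup q.1 × primeLocalGaloisGroup q.1 → chiLoc p S q}
    (h : u ∈ levelCocycles₂ (primeLocalToGlobal q.1) (chiLoc p S q))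
    (h' : u' ∈ levelCocycles₂ (primeLocalToGlobal q.1) (chiLoc p S q)) :
    locClass p S q (u + u') = locClass p S q u + locClass p S q u' := by
  rw [locClass_of_mem q h, locClass_of_mem q h', locClass_of_mem q (Submodule.add_mem _ h h'),
    ← map_add]
  rfl

theorem locClass_sub (q : ↥S)
    {u u' : primeLocalGaloisGroup q.1 × primeLocalGaloisGroup q.1 → chiLoc p S q}
    (h : u ∈ levelCocycles₂ (primeLocalToGlobal q.1) (chiLoc p S q))
    (h' : u' ∈ levelCocycles₂ (primeLocalToGlobal q.1) (chiLoc p S q)) :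
    locClass p S q (u - u') = locClass p S q u - locClass p S q u' := by
  rw [locClass_of_mem q h, locClass_of_mem q h', locClass_of_mem q (Submodule.sub_mem _ h h'),
    ← map_sub]
  rfl

theorem locClass_smul (q : ↥S) (c : ZMod p)
    {u : primeLocalGaloisGroup q.1 × primeLocalGaloisGroup q.1 → chiLoc p S q}
    (h : u ∈ levelCocycles₂ (primeLocalToGlobal q.1) (chiLoc p S q)) :
    locClass p S q (c • u) = c • locClass p S q u := by
  rw [locClass_of_mem q h, locClass_of_mem q (Submodule.smul_mem _ c h), ← map_smul]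
  rfl

theorem locClass_eq_zero (q : ↥S)
    {u : primeLocalGaloisGroup q.1 × primeLocalGaloisGroup q.1 → chiLoc p S q}
    (h : u ∈ levelCoboundaries₂ (primeLocalToGlobal q.1) (chiLoc p S q)) :
    locClass p S q u = 0 := by
  by_cases h' : u ∈ levelCocycles₂ (primeLocalToGlobal q.1) (chiLoc p S q)
  · rw [locClass_of_mem q h']
    exact (continuousH2π_eq_zero_iff _ _ _).2 h
  · exact dif_neg h'

theorem locClass_zero (q : ↥S) : locClass p S q 0 = 0 :=
  locClass_eq_zero q (Submodule.zero_mem _)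

/-- The class of the restriction of a global level-`S` cocycle is the Prelude's localisation. -/
theorem locClass_res₂ (q : ↥S) (c : ↥(levelCocyclesS₂ S (chiRep p))) :
    locClass p S q (res₂ S q (c : Γ × Γ → chiRep p)) =
      locRes₂S S (chiRep p) (primeLocalToGlobal q.1) (continuousH2Sπ S (chiRep p) c) := by
  have h : res₂ S q (c : Γ × Γ → chiRep p) ∈
      levelCocycles₂ (primeLocalToGlobal q.1) (chiLoc p S q) :=
    (levelCocycles₂Map (rH := MonoidHom.id _) (rG := primeLocalToGlobal q.1)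
      (A := chiRep p) (B := chiLoc p S q)
      (primeLocalToGlobal q.1) (fun _ => rfl)
      (LinearMap.id : chiRep p →ₗ[ZMod p] chiLoc p S q) (fun _ _ => rfl)
      (levelCocyclesS₂ToLevelCocycles₂ S (chiRep p) c)).2
  rw [locClass_of_mem q h]
  rfl

end Local

end Fermat.Agent.S55.H62
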