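import Fermat.Agent.S55.H62.RLocalCriterion
import Fermat.Agent.S55.H43.LocalCrit

/-!
# Route R, package C2: formula (C) in the vocabulary of `H43/LocalCrit.lean`, and S55 from `inv`

* `rpairing_formulaC : H43.FormulaC S (rpairing p S inv) inv (-1)`;
* `rpairing_localCriterion`: the leaf `LocalCriterion` for `H43.rPackage S (rpairing p S inv)`
  from `H43.LocalInjP S inv`;
* `s55_of_inv`: the conclusion of the frozen S55 from a family `inv` of local invariant maps with
  `H3Statement`, `RECStatement`, `LocalInjP` and the leaves (CD), (EX), (HASSE), (COUNT).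
-/

set_option autoImplicit false

open CategoryTheory groupCohomology ExtCitation

noncomputable section

namespace Fermat.Agent.S55.H62

open Fermat.Agent.S55.H70 Fermat.Agent.S55.H12 Fermat.Agent.S55.H87 Fermat.Agent.S55.H43

local notation "Γ" => (AlgebraicClosure ℚ ≃ₐ[ℚ] AlgebraicClosure ℚ)

variable {p : ℕ} [Fact p.Prime] {S : Finset Nat.Primes}

/-- `locEvMap` for the evaluation pairing is `H43.evH2`. -/
theorem locEvMap_eq_evH2 (M : Rep.{0, 0, 0} (ZMod p) Γ) (q : ↥S) (m : H0loc S (D p M) q) :
    locEvMap p S (evPairing p M) q (m : D p M) = evH2 S M q m := by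
  have h := flip_equivariant (evPairing_equivariant p M) q m.2
  rw [locEvMap, dif_pos h]
  rfl

/-- **(C)** in the form consumed by `H43.rPackage_localCriterion`, with `ε = -1`. -/
theorem rpairing_formulaC {inv : LocalInv p S} (hpS : pPrime p ∈ S) (hH3 : H3Statement p S)
    (hREC : RECStatement p S inv) : FormulaC S (rpairing p S inv) inv (-1) := by
  intro M hM x m
  have hready : CupReady p S (evPairing p M) inv :=
    cupReady_of_isAdm hH3 hREC (dualAdmStatement_h70 S hpS M hM)
  show cupPairing p S (evPairing p M) inv x (Hc1π S (D p M) (loc0Z S (D p M) m)) = _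
  rw [cupPairing_loc0' hready x (loc0Z S (D p M) m) rfl, neg_one_mul]
  congr 1
  refine Finset.sum_congr rfl fun q _ => ?_
  rw [← locEvMap_eq_evH2]
  rfl

/-- **(LC)** The local criterion for the concrete package of `rpairing`, from local
injectivity `H43.LocalInjP`. -/
theorem rpairing_localCriterion {inv : LocalInv p S} (hp2 : p ≠ 2) (hpS : pPrime p ∈ S)
    (hH3 : H3Statement p S) (hREC : RECStatement p S inv) (hL : LocalInjP S inv) :
    (rPackage S (rpairing p S inv)).LocalCriterion :=
  Fermat.Agent.S55.H43.rPackage_localCriterion S (rpairing p S inv) inv hp2 (-1)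
    (neg_ne_zero.2 one_ne_zero) (rpairing_formulaC hpS hH3 hREC) hL

/-- **S55 from a family of local invariant maps**: `inv` with `H³(G_S, μ_p) = 0`, reciprocity
and local injectivity, plus the leaves (CD), (EX), (HASSE), (COUNT) for the package of
`rpairing p S inv`. -/
theorem s55_of_inv (hp2 : p ≠ 2) (hpS : pPrime p ∈ S) (inv : LocalInv p S)
    (hH3 : H3Statement p S) (hREC : RECStatement p S inv) (hL : LocalInjP S inv)
    (hcd : H2SurjAdm p S)
    (hex : ExStatement (rPackage S (rpairing p S inv)))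
    (c : IntermediateField ℚ (AlgebraicClosure ℚ) → ℕ)
    (hH : HasseStatement p S c) (hC : CountStatement p S c)
    (M : Rep (ZMod p) (AlgebraicClosure ℚ ≃ₐ[ℚ] AlgebraicClosure ℚ))
    [FiniteDimensional (ZMod p) M]
    (hsm : ∀ m : M, ∃ F : IntermediateField ℚ (AlgebraicClosure ℚ), FiniteDimensional ℚ F ∧
      ∀ s ∈ F.fixingSubgroup, M.ρ s m = m)
    (hMur : ∀ q : Nat.Primes, q ∉ S → ∀ A : ValuationSubring (AlgebraicClosure ℚ),
      A.LiesOverPrime (q : ℕ) → ∀ g ∈ A.inertiaSubgroupIn ℚ, M.ρ g = 1) :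
    ∃ B : sha₁ S (M.dualTwist (cycloChar p)) →ₗ[ZMod p] sha₂ S M →ₗ[ZMod p] ZMod p,
      (∀ y, (∀ x, B y x = 0) → y = 0) ∧ (∀ x, (∀ y, B y x = 0) → x = 0) :=
  s55_of_pairing S hp2 hpS (rpairing p S inv) (rpairing_natAdm hpS hH3 hREC)
    (rpairing_localCriterion hp2 hpS hH3 hREC hL) hcd hex c hH hC M hsm hMur

end Fermat.Agent.S55.H62
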