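import Fermat.Agent.S55.H62.RLevel

/-!
# Route R, package C2: the pairing `H²(G_S, M) × H¹_c(G_S, M') → 𝔽_p`

`M` a representation of the absolute Galois group of `ℚ` over `𝔽_p`, `M' = M^∨(1)` its Tate dual,
`H²(G_S, M)` the Prelude's `continuousH2S S M`, `H¹_c(G_S, M')` helper43's `H43.Hc1 S M'`.

For a level-`S` `2`-cocycle `x` and a compactly supported `1`-cocycle `(n, (m_q)_{q ∈ S})` the cup
product `x ∪ n` is a level-`S` `3`-cocycle with values in `𝔽_p(χ)`, hence a coboundary `d y`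
(`H3Statement`); for `q ∈ S` the cochain `z_q = (y - x ∪ m_q)|G_q` is a local `2`-cocycle and

  `⟨x, (n, m)⟩ = ∑_{q ∈ S} inv_q [z_q]`.

This is independent of `y` by the reciprocity law (`RECStatement`).

Main declarations:

* `H3Statement p S`, `RECStatement p S inv`: the two arithmetic inputs;
* `cupPairing p S φ inv : continuousH2S S M →ₗ Hc1 S N →ₗ ZMod p`, for any equivariant pairing
  `φ : M × N → 𝔽_p(χ)` (it is `0` unless `CupReady p S φ inv` holds);
* `cupPairing_eq` (CHAR): the formula above, for every `y`;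
* `cupPairing_loc0` (C): the formula on the classes `(0, (m_q))`;
* `cupPairing_nat` (NAT): naturality for adjoint pairs of morphisms.
-/

set_option autoImplicit false

open CategoryTheory groupCohomology ExtCitation

noncomputable section

namespace Fermat.Agent.S55.H62

open Fermat.Agent.S55.H43

local notation "Γ" => (AlgebraicClosure ℚ ≃ₐ[ℚ] AlgebraicClosure ℚ)

variable (p : ℕ) [Fact p.Prime] (S : Finset Nat.Primes)

/-- **(S1d)** Every level-`S`-constant `3`-cocycle with values in `𝔽_p(χ)` is the coboundary of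
a level-`S`-constant `2`-cochain: `H³(G_S, μ_p) = 0`. -/
def H3Statement : Prop :=
  ∀ c : Γ × Γ × Γ → chiRep p, IsLevelConstantS₃ S c → IsCocycle₃ (chiRep p) c →
    ∃ y : Γ × Γ → chiRep p, IsLevelConstantS₂ S y ∧ (d₂₃ (chiRep p)).hom y = c

/-- **(S1a)** The reciprocity law: the local invariants of a global class sum to zero. -/
def RECStatement (inv : LocalInv p S) : Prop :=
  ∀ c : continuousH2S S (chiRep p),
    ∑ q : ↥S, inv q (locRes₂S S (chiRep p) (primeLocalToGlobal q.1) c) = 0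

section Pre

variable {M N : Rep.{0, 0, 0} (ZMod p) Γ} (φ : M →ₗ[ZMod p] N →ₗ[ZMod p] chiRep p)

/-- The local cochain `(y - x ∪ m)|G_q`. -/
def locCochain (x : Γ × Γ → M) (m : N) (y : Γ × Γ → chiRep p) (q : ↥S) :
    primeLocalGaloisGroup q.1 × primeLocalGaloisGroup q.1 → chiLoc p S q :=
  res₂ S q (y - cup20 φ x m)

variable {p S φ}

theorem locCochain_mem (hφ : IsEquivariantPairing φ) (hM : HasTrivLevel S N) {x : Γ × Γ → M}
    (hx : x ∈ levelCocyclesS₂ S M) {y : Γ × Γ → chiRep p} (hy : IsLevelConstantS₂ S y)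
    {n : Γ → N} (hd : (d₂₃ (chiRep p)).hom y = cup21 φ x n)
    (q : ↥S) {m : N}
    (hloc : ∀ g : primeLocalGaloisGroup q.1, n (primeLocalToGlobal q.1 g) =
      N.ρ (primeLocalToGlobal q.1 g) m - m) :
    locCochain p S φ x m y q ∈ levelCocycles₂ (primeLocalToGlobal q.1) (chiLoc p S q) := by
  refine ⟨(mem_cocycles₂_def _).2 fun g h j => ?_,
    isLevelConstant₂_res₂ q (isLevelConstantS₂_sub hy (isLevelConstantS₂_cup20 _ hM hx.2 m))⟩
  have h1 : (d₂₃ (chiRep p)).hom (y - cup20 φ x m) =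
      cup21 φ x n - cup21 φ x ((d₀₁ N).hom m) := by
    rw [map_sub, hd, d₂₃_cup20 hφ hx.1]
  have h2 := congrFun h1 (primeLocalToGlobal q.1 g, primeLocalToGlobal q.1 h,
    primeLocalToGlobal q.1 j)
  rw [d₂₃_hom_apply] at h2
  have h3 : (cup21 φ x n -
      cup21 φ x ((d₀₁ N).hom m))
      (primeLocalToGlobal q.1 g, primeLocalToGlobal q.1 h, primeLocalToGlobal q.1 j) = 0 := by
    show φ (x (primeLocalToGlobal q.1 g, primeLocalToGlobal q.1 h))
        (N.ρ (primeLocalToGlobal q.1 g * primeLocalToGlobal q.1 h)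
          (n (primeLocalToGlobal q.1 j))) -
      φ (x (primeLocalToGlobal q.1 g, primeLocalToGlobal q.1 h))
        (N.ρ (primeLocalToGlobal q.1 g * primeLocalToGlobal q.1 h)
          ((d₀₁ N).hom m (primeLocalToGlobal q.1 j))) = 0
    rw [hloc j, d₀₁_hom_apply, sub_self]
  rw [h3] at h2
  show (chiRep p).ρ (primeLocalToGlobal q.1 g)
      ((y - cup20 φ x m) (primeLocalToGlobal q.1 h, primeLocalToGlobal q.1 j)) -
    (y - cup20 φ x m) (primeLocalToGlobal q.1 (g * h), primeLocalToGlobal q.1 j) +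
    (y - cup20 φ x m) (primeLocalToGlobal q.1 g, primeLocalToGlobal q.1 (h * j)) -
    (y - cup20 φ x m) (primeLocalToGlobal q.1 g, primeLocalToGlobal q.1 h) = 0
  rw [map_mul, map_mul]
  exact h2

variable (p S φ)

/-- The value of the pairing computed with a primitive `y` of `x ∪ n`. -/
def valWith (inv : LocalInv p S) (x : Γ × Γ → M) (m : ↥S → N)
    (y : Γ × Γ → chiRep p) : ZMod p :=
  ∑ q : ↥S, inv q (locClass p S q (locCochain p S φ x (m q) y q))

/-- The pairing on cochains (`0` if `x ∪ n` has no level-`S`-constant primitive). -/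
def rpre (inv : LocalInv p S) (x : Γ × Γ → M)
    (z : (Γ → N) × (↥S → N)) : ZMod p :=
  open Classical in
  if h : ∃ y : Γ × Γ → chiRep p, IsLevelConstantS₂ S y ∧
      (d₂₃ (chiRep p)).hom y = cup21 φ x z.1 then
    valWith p S φ inv x z.2 (Classical.choose h)
  else 0

variable {p S φ}

/-- Independence of the primitive. -/
theorem rpre_eq (hφ : IsEquivariantPairing φ) {inv : LocalInv p S} (hREC : RECStatement p S inv)
    (hM : HasTrivLevel S N) {x : Γ × Γ → M} (hx : x ∈ levelCocyclesS₂ S M)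
    {z : (Γ → N) × (↥S → N)} (hz : z ∈ Z1c S N)
    {y : Γ × Γ → chiRep p} (hy : IsLevelConstantS₂ S y)
    (hd : (d₂₃ (chiRep p)).hom y = cup21 φ x z.1) :
    rpre p S φ inv x z = valWith p S φ inv x z.2 y := by
  have hex : ∃ y : Γ × Γ → chiRep p, IsLevelConstantS₂ S y ∧
      (d₂₃ (chiRep p)).hom y = cup21 φ x z.1 := ⟨y, hy, hd⟩
  rw [rpre, dif_pos hex]
  obtain ⟨hy₀, hd₀⟩ := Classical.choose_spec hex
  generalize Classical.choose hex = y₀ at hy₀ hd₀
  have hcoc : y₀ - y ∈ levelCocyclesS₂ S (chiRep p) :=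
    ⟨LinearMap.mem_ker.2 (by rw [map_sub, hd₀, hd, sub_self]), isLevelConstantS₂_sub hy₀ hy⟩
  rw [← sub_eq_zero, valWith, valWith, ← Finset.sum_sub_distrib]
  have key : ∀ q : ↥S, inv q (locClass p S q (locCochain p S φ x (z.2 q) y₀ q)) -
      inv q (locClass p S q (locCochain p S φ x (z.2 q) y q)) =
      inv q (locRes₂S S (chiRep p) (primeLocalToGlobal q.1)
        (continuousH2Sπ S (chiRep p) ⟨y₀ - y, hcoc⟩)) := by
    intro q
    rw [← map_sub, ← locClass_sub q (locCochain_mem hφ hM hx hy₀ hd₀ q (hz.2.2 q))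
      (locCochain_mem hφ hM hx hy hd q (hz.2.2 q)), ← locClass_res₂ q ⟨y₀ - y, hcoc⟩]
    congr 2
    funext gh
    simp only [locCochain, res₂, Pi.sub_apply]
    abel
  rw [Finset.sum_congr rfl (fun q _ => key q)]
  exact hREC _

theorem exists_primitive (hφ : IsEquivariantPairing φ) (hH3 : H3Statement p S) (hM : HasTrivLevel S N)
    {x : Γ × Γ → M} (hx : x ∈ levelCocyclesS₂ S M)
    {z : (Γ → N) × (↥S → N)} (hz : z ∈ Z1c S N) :
    ∃ y : Γ × Γ → chiRep p, IsLevelConstantS₂ S y ∧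
      (d₂₃ (chiRep p)).hom y = cup21 φ x z.1 :=
  hH3 _ (isLevelConstantS₃_cup21 _ hM hx.2 hz.2.1)
    (isCocycle₃_cup21 hφ hx.1 hz.1)

/-! ### Bilinearity on cochains -/

theorem locCochain_add_left (x x' : Γ × Γ → M) (m : N) (y y' : Γ × Γ → chiRep p)
    (q : ↥S) : locCochain p S φ (x + x') m (y + y') q =
      locCochain p S φ x m y q + locCochain p S φ x' m y' q := by
  funext gh
  simp only [locCochain, res₂, cup20, Pi.sub_apply, Pi.add_apply, map_add, LinearMap.add_apply]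
  abel

theorem locCochain_add_right (x : Γ × Γ → M) (m m' : N) (y y' : Γ × Γ → chiRep p)
    (q : ↥S) : locCochain p S φ x (m + m') (y + y') q =
      locCochain p S φ x m y q + locCochain p S φ x m' y' q := by
  funext gh
  simp only [locCochain, res₂, cup20, Pi.sub_apply, Pi.add_apply, map_add]
  abel

theorem locCochain_smul_left (c : ZMod p) (x : Γ × Γ → M) (m : N)
    (y : Γ × Γ → chiRep p) (q : ↥S) :
    locCochain p S φ (c • x) m (c • y) q = c • locCochain p S φ x m y q := by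
  funext gh
  simp only [locCochain, res₂, cup20, Pi.sub_apply, Pi.smul_apply, map_smul,
    LinearMap.smul_apply, smul_sub]

theorem locCochain_smul_right (c : ZMod p) (x : Γ × Γ → M) (m : N)
    (y : Γ × Γ → chiRep p) (q : ↥S) :
    locCochain p S φ x (c • m) (c • y) q = c • locCochain p S φ x m y q := by
  funext gh
  simp only [locCochain, res₂, cup20, Pi.sub_apply, Pi.smul_apply, map_smul, smul_sub]

theorem rpre_add_left (hφ : IsEquivariantPairing φ) {inv : LocalInv p S} (hH3 : H3Statement p S) (hREC : RECStatement p S inv)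
    (hM : HasTrivLevel S N) {x x' : Γ × Γ → M} (hx : x ∈ levelCocyclesS₂ S M)
    (hx' : x' ∈ levelCocyclesS₂ S M)
    {z : (Γ → N) × (↥S → N)} (hz : z ∈ Z1c S N) :
    rpre p S φ inv (x + x') z = rpre p S φ inv x z + rpre p S φ inv x' z := by
  obtain ⟨y, hy, hd⟩ := exists_primitive hφ hH3 hM hx hz
  obtain ⟨y', hy', hd'⟩ := exists_primitive hφ hH3 hM hx' hz
  have hd'' : (d₂₃ (chiRep p)).hom (y + y') = cup21 φ (x + x') z.1 := by
    rw [map_add, hd, hd', cup21_add_left]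
  rw [rpre_eq hφ hREC hM hx hz hy hd, rpre_eq hφ hREC hM hx' hz hy' hd',
    rpre_eq hφ hREC hM (Submodule.add_mem _ hx hx') hz (hy.add hy') hd'']
  simp only [valWith, ← Finset.sum_add_distrib, ← map_add]
  refine Finset.sum_congr rfl fun q _ => ?_
  rw [← locClass_add q (locCochain_mem hφ hM hx hy hd q (hz.2.2 q))
    (locCochain_mem hφ hM hx' hy' hd' q (hz.2.2 q)), locCochain_add_left]

theorem rpre_smul_left (hφ : IsEquivariantPairing φ) {inv : LocalInv p S} (hH3 : H3Statement p S) (hREC : RECStatement p S inv)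
    (hM : HasTrivLevel S N) (c : ZMod p) {x : Γ × Γ → M}
    (hx : x ∈ levelCocyclesS₂ S M)
    {z : (Γ → N) × (↥S → N)} (hz : z ∈ Z1c S N) :
    rpre p S φ inv (c • x) z = c • rpre p S φ inv x z := by
  obtain ⟨y, hy, hd⟩ := exists_primitive hφ hH3 hM hx hz
  have hd'' : (d₂₃ (chiRep p)).hom (c • y) = cup21 φ (c • x) z.1 := by
    rw [map_smul, hd, cup21_smul_left]
  have hy'' : IsLevelConstantS₂ S (c • y) := hy.comp (c • ·)
  rw [rpre_eq hφ hREC hM hx hz hy hd,
    rpre_eq hφ hREC hM (Submodule.smul_mem _ c hx) hz hy'' hd'']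
  simp only [valWith, Finset.smul_sum, ← map_smul]
  refine Finset.sum_congr rfl fun q _ => ?_
  rw [← locClass_smul q c (locCochain_mem hφ hM hx hy hd q (hz.2.2 q)), locCochain_smul_left]

theorem rpre_add_right (hφ : IsEquivariantPairing φ) {inv : LocalInv p S} (hH3 : H3Statement p S) (hREC : RECStatement p S inv)
    (hM : HasTrivLevel S N) {x : Γ × Γ → M} (hx : x ∈ levelCocyclesS₂ S M)
    {z z' : (Γ → N) × (↥S → N)} (hz : z ∈ Z1c S N)
    (hz' : z' ∈ Z1c S N) :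
    rpre p S φ inv x (z + z') = rpre p S φ inv x z + rpre p S φ inv x z' := by
  obtain ⟨y, hy, hd⟩ := exists_primitive hφ hH3 hM hx hz
  obtain ⟨y', hy', hd'⟩ := exists_primitive hφ hH3 hM hx hz'
  have hd'' : (d₂₃ (chiRep p)).hom (y + y') = cup21 φ x (z + z').1 := by
    rw [map_add, hd, hd', Prod.fst_add, cup21_add_right]
  rw [rpre_eq hφ hREC hM hx hz hy hd, rpre_eq hφ hREC hM hx hz' hy' hd',
    rpre_eq hφ hREC hM hx (Submodule.add_mem _ hz hz') (hy.add hy') hd'']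
  simp only [valWith, ← Finset.sum_add_distrib, ← map_add]
  refine Finset.sum_congr rfl fun q _ => ?_
  rw [← locClass_add q (locCochain_mem hφ hM hx hy hd q (hz.2.2 q))
    (locCochain_mem hφ hM hx hy' hd' q (hz'.2.2 q)), ← locCochain_add_right]
  rfl

theorem rpre_smul_right (hφ : IsEquivariantPairing φ) {inv : LocalInv p S} (hH3 : H3Statement p S)
    (hREC : RECStatement p S inv) (hM : HasTrivLevel S N) (c : ZMod p)
    {x : Γ × Γ → M} (hx : x ∈ levelCocyclesS₂ S M)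
    {z : (Γ → N) × (↥S → N)} (hz : z ∈ Z1c S N) :
    rpre p S φ inv x (c • z) = c • rpre p S φ inv x z := by
  obtain ⟨y, hy, hd⟩ := exists_primitive hφ hH3 hM hx hz
  have hd'' : (d₂₃ (chiRep p)).hom (c • y) = cup21 φ x (c • z).1 := by
    rw [map_smul, hd, Prod.smul_fst, cup21_smul_right]
  have hy'' : IsLevelConstantS₂ S (c • y) := hy.comp (c • ·)
  rw [rpre_eq hφ hREC hM hx hz hy hd,
    rpre_eq hφ hREC hM hx (Submodule.smul_mem _ c hz) hy'' hd'']
  simp only [valWith, Finset.smul_sum, ← map_smul]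
  refine Finset.sum_congr rfl fun q _ => ?_
  rw [← locClass_smul q c (locCochain_mem hφ hM hx hy hd q (hz.2.2 q)), ← locCochain_smul_right]
  rfl

/-! ### Vanishing on coboundaries -/

/-- The pairing vanishes on the coboundaries of level-`S`-constant `1`-cochains. -/
theorem rpre_coboundary_left (hφ : IsEquivariantPairing φ) {inv : LocalInv p S} (hREC : RECStatement p S inv)
    (hM : HasTrivLevel S N) {w : Γ → M} (hw : IsLevelConstantS₁ S w)
    (hx : (d₁₂ M).hom w ∈ levelCocyclesS₂ S M)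
    {z : (Γ → N) × (↥S → N)} (hz : z ∈ Z1c S N) :
    rpre p S φ inv ((d₁₂ M).hom w) z = 0 := by
  have hy : IsLevelConstantS₂ S (cup11 φ w z.1) :=
    isLevelConstantS₂_cup11 _ hM hw hz.2.1
  have hd : (d₂₃ (chiRep p)).hom (cup11 φ w z.1) =
      cup21 φ ((d₁₂ M).hom w) z.1 :=
    d₂₃_cup11 hφ w hz.1
  rw [rpre_eq hφ hREC hM hx hz hy hd, valWith]
  refine Finset.sum_eq_zero fun q _ => ?_
  rw [locClass_eq_zero q, map_zero]
  have hlc : IsLevelConstantS₁ S (-(cup10 φ w (z.2 q))) :=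
    (isLevelConstantS₁_cup10 φ hM hw (z.2 q)).comp (fun a => -a)
  refine (mem_levelCoboundaries₂_iff _ _ _).2
    ⟨res₁ S q (-(cup10 φ w (z.2 q))), isLevelConstant₁_res₁ q hlc, ?_⟩
  funext ⟨g, h⟩
  have h2 : cup11 φ w ((d₀₁ N).hom (z.2 q))
      (primeLocalToGlobal q.1 g, primeLocalToGlobal q.1 h) =
      cup11 φ w z.1 (primeLocalToGlobal q.1 g, primeLocalToGlobal q.1 h) := by
    show φ (w (primeLocalToGlobal q.1 g)) (N.ρ (primeLocalToGlobal q.1 g)
        ((d₀₁ N).hom (z.2 q) (primeLocalToGlobal q.1 h))) =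
      φ (w (primeLocalToGlobal q.1 g)) (N.ρ (primeLocalToGlobal q.1 g)
        (z.1 (primeLocalToGlobal q.1 h)))
    rw [hz.2.2 q h, d₀₁_hom_apply]
  have h1 := congrFun (d₁₂_cup10 hφ w (z.2 q))
    (primeLocalToGlobal q.1 g, primeLocalToGlobal q.1 h)
  rw [d₁₂_hom_apply, Pi.sub_apply, h2] at h1
  have h1' : (chiRep p).ρ (primeLocalToGlobal q.1 g)
      (cup10 φ w (z.2 q) (primeLocalToGlobal q.1 h)) -
      cup10 φ w (z.2 q) (primeLocalToGlobal q.1 g * primeLocalToGlobal q.1 h) +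
      cup10 φ w (z.2 q) (primeLocalToGlobal q.1 g) =
      cup20 φ ((d₁₂ M).hom w) (z.2 q)
        (primeLocalToGlobal q.1 g, primeLocalToGlobal q.1 h) -
      cup11 φ w z.1 (primeLocalToGlobal q.1 g, primeLocalToGlobal q.1 h) := h1
  rw [d₁₂_hom_apply]
  show (chiRep p).ρ (primeLocalToGlobal q.1 g)
      (-(cup10 φ w (z.2 q) (primeLocalToGlobal q.1 h))) -
      (-(cup10 φ w (z.2 q) (primeLocalToGlobal q.1 (g * h)))) +
      (-(cup10 φ w (z.2 q) (primeLocalToGlobal q.1 g))) =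
    cup11 φ w z.1 (primeLocalToGlobal q.1 g, primeLocalToGlobal q.1 h) -
      cup20 φ ((d₁₂ M).hom w) (z.2 q)
        (primeLocalToGlobal q.1 g, primeLocalToGlobal q.1 h)
  rw [map_mul, map_neg, ← neg_sub (cup20 φ ((d₁₂ M).hom w) (z.2 q)
    (primeLocalToGlobal q.1 g, primeLocalToGlobal q.1 h)), ← h1']
  abel

/-- The pairing vanishes on the compactly supported coboundaries `(d m₀, (m₀)_q)`. -/
theorem rpre_coboundary_right (hφ : IsEquivariantPairing φ) {inv : LocalInv p S} (hREC : RECStatement p S inv)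
    (hM : HasTrivLevel S N) {x : Γ × Γ → M} (hx : x ∈ levelCocyclesS₂ S M)
    (m₀ : N)
    (hz : ((d₀₁ N).hom m₀, fun _ : ↥S => m₀) ∈ Z1c S N) :
    rpre p S φ inv x ((d₀₁ N).hom m₀, fun _ : ↥S => m₀) = 0 := by
  have hy : IsLevelConstantS₂ S (cup20 φ x m₀) :=
    isLevelConstantS₂_cup20 _ hM hx.2 m₀
  have hd : (d₂₃ (chiRep p)).hom (cup20 φ x m₀) =
      cup21 φ x ((d₀₁ N).hom m₀) :=
    d₂₃_cup20 hφ hx.1 m₀
  rw [rpre_eq hφ hREC hM hx hz hy hd, valWith]
  refine Finset.sum_eq_zero fun q _ => ?_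
  have h0 : locCochain p S φ x m₀ (cup20 φ x m₀) q = 0 := by
    funext gh
    simp only [locCochain, res₂, Pi.sub_apply, sub_self, Pi.zero_apply]
  show inv q (locClass p S q (locCochain p S φ x m₀ (cup20 φ x m₀) q)) = 0
  rw [h0, locClass_zero, map_zero]

variable (p S φ)

/-- The hypotheses under which the pairing is computed by the cup product: `φ` is equivariant,
`H³(G_S, μ_p) = 0`, reciprocity, and `N` is trivial on an `S`-level. -/
def CupReady (inv : LocalInv p S) : Prop :=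
  IsEquivariantPairing φ ∧ H3Statement p S ∧ RECStatement p S inv ∧ HasTrivLevel S N

/-- The pairing on cocycles, as a bilinear map. -/
def rpreBil (inv : LocalInv p S) (h : CupReady p S φ inv) :
    ↥(levelCocyclesS₂ S M) →ₗ[ZMod p] ↥(Z1c S N) →ₗ[ZMod p] ZMod p :=
  LinearMap.mk₂ (ZMod p) (fun x z => rpre p S φ inv x.1 z.1)
    (fun x x' z => rpre_add_left h.1 h.2.1 h.2.2.1 h.2.2.2 x.2 x'.2 z.2)
    (fun c x z => rpre_smul_left h.1 h.2.1 h.2.2.1 h.2.2.2 c x.2 z.2)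
    (fun x z z' => rpre_add_right h.1 h.2.1 h.2.2.1 h.2.2.2 x.2 z.2 z'.2)
    (fun c x z => rpre_smul_right h.1 h.2.1 h.2.2.1 h.2.2.2 c x.2 z.2)

theorem rpreBil_apply (inv : LocalInv p S) (h : CupReady p S φ inv)
    (x : ↥(levelCocyclesS₂ S M)) (z : ↥(Z1c S N)) :
    rpreBil p S φ inv h x z = rpre p S φ inv x.1 z.1 := rfl

/-- The pairing on `H²(G_S, M)`-cocycles and `H¹_c(G_S, N)`. -/
def rpreHc (inv : LocalInv p S) (h : CupReady p S φ inv) :
    ↥(levelCocyclesS₂ S M) →ₗ[ZMod p] Hc1 S N →ₗ[ZMod p] ZMod p :=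
  LinearMap.flip ((B1c S N).liftQ (rpreBil p S φ inv h).flip (by
    intro z hz
    obtain ⟨m₀, hm₀⟩ := (mem_B1c_iff S N z).1 hz
    rw [LinearMap.mem_ker]
    refine LinearMap.ext fun x => ?_
    have hz' : ((d₀₁ N).hom m₀, fun _ : ↥S => m₀) ∈ Z1c S N := by
      rw [← hm₀]
      exact z.2
    show rpre p S φ inv x.1 z.1 = 0
    rw [hm₀]
    exact rpre_coboundary_right h.1 h.2.2.1 h.2.2.2 x.2 m₀ hz'))

theorem rpreHc_apply (inv : LocalInv p S) (h : CupReady p S φ inv)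
    (x : ↥(levelCocyclesS₂ S M)) (z : ↥(Z1c S N)) :
    rpreHc p S φ inv h x (Hc1π S N z) = rpre p S φ inv x.1 z.1 := rfl

/-- **The cup product pairing** `H²(G_S, M) × H¹_c(G_S, N) → 𝔽_p` attached to a pairing
`φ : M × N → 𝔽_p(χ)` and a family of local invariant maps.  It is `0` unless
`CupReady p S φ inv` holds. -/
def cupPairing (inv : LocalInv p S) :
    continuousH2S S M →ₗ[ZMod p] Hc1 S N →ₗ[ZMod p] ZMod p :=
  open Classical in
  if h : CupReady p S φ inv then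
    Submodule.liftQ _ (rpreHc p S φ inv h) (by
      intro x hx
      rw [Submodule.mem_comap] at hx
      obtain ⟨w, hw, hd⟩ := (mem_levelCoboundariesS₂_iff S M _).1 hx
      rw [LinearMap.mem_ker]
      refine LinearMap.ext fun z => ?_
      obtain ⟨z, rfl⟩ := Hc1π_surjective S N z
      rw [rpreHc_apply]
      have hx' : (d₁₂ M).hom w ∈ levelCocyclesS₂ S M := by
        rw [hd]
        exact x.2
      have e : (x : Γ × Γ → M) = (d₁₂ M).hom w := hd.symm
      show rpre p S φ inv (x : Γ × Γ → M) z.1 = 0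
      rw [e]
      exact rpre_coboundary_left h.1 h.2.2.1 h.2.2.2 hw hx' z.2)
  else 0

variable {p S φ}

/-- **(CHAR)** The pairing computed with any level-`S`-constant primitive `y` of `x ∪ n`:
`⟨[x], [(n, m)]⟩ = ∑_q inv_q [(y - x ∪ m_q)|G_q]`. -/
theorem cupPairing_eq {inv : LocalInv p S} (h : CupReady p S φ inv)
    (x : ↥(levelCocyclesS₂ S M)) (z : ↥(Z1c S N)) {y : Γ × Γ → chiRep p}
    (hy : IsLevelConstantS₂ S y)
    (hd : (d₂₃ (chiRep p)).hom y = cup21 φ (x : Γ × Γ → M) z.1.1) :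
    cupPairing p S φ inv (continuousH2Sπ S M x) (Hc1π S N z) =
      ∑ q : ↥S, inv q (locClass p S q (locCochain p S φ (x : Γ × Γ → M) (z.1.2 q) y q)) := by
  rw [cupPairing, dif_pos h]
  exact rpre_eq h.1 h.2.2.1 h.2.2.2 x.2 z.2 hy hd

/-- The local cochains of **(CHAR)** are level `2`-cocycles. -/
theorem locCochain_mem_of_primitive (hφ : IsEquivariantPairing φ) (hN : HasTrivLevel S N)
    (x : ↥(levelCocyclesS₂ S M)) (z : ↥(Z1c S N)) {y : Γ × Γ → chiRep p}
    (hy : IsLevelConstantS₂ S y)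
    (hd : (d₂₃ (chiRep p)).hom y = cup21 φ (x : Γ × Γ → M) z.1.1) (q : ↥S) :
    locCochain p S φ (x : Γ × Γ → M) (z.1.2 q) y q ∈
      levelCocycles₂ (primeLocalToGlobal q.1) (chiLoc p S q) :=
  locCochain_mem hφ hN x.2 hy hd q (z.2.2.2 q)

/-- A primitive always exists (under `H3Statement`). -/
theorem exists_primitive' (hφ : IsEquivariantPairing φ) (hH3 : H3Statement p S)
    (hN : HasTrivLevel S N) (x : ↥(levelCocyclesS₂ S M)) (z : ↥(Z1c S N)) :
    ∃ y : Γ × Γ → chiRep p, IsLevelConstantS₂ S y ∧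
      (d₂₃ (chiRep p)).hom y = cup21 φ (x : Γ × Γ → M) z.1.1 :=
  exists_primitive hφ hH3 hN x.2 z.2

variable (S φ) in
/-- The cochain `(g, h) ↦ φ (x (g, h)) m` on the local Galois group at `q`. -/
def evLoc (x : Γ × Γ → M) (m : N) (q : ↥S) :
    primeLocalGaloisGroup q.1 × primeLocalGaloisGroup q.1 → chiLoc p S q :=
  fun gh => φ (x (primeLocalToGlobal q.1 gh.1, primeLocalToGlobal q.1 gh.2)) m

/-- **(C)** The pairing on the classes `(0, (m_q))` (each `m_q` is invariant under the local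
Galois group at `q`): `⟨[x], [(0, m)]⟩ = - ∑_q inv_q [φ(x|G_q, m_q)]`; the local cochains are
level `2`-cocycles. -/
theorem cupPairing_loc0 {inv : LocalInv p S} (h : CupReady p S φ inv)
    (x : ↥(levelCocyclesS₂ S M)) (z : ↥(Z1c S N)) (hz : z.1.1 = 0) :
    (∀ q : ↥S, evLoc S φ (x : Γ × Γ → M) (z.1.2 q) q ∈
      levelCocycles₂ (primeLocalToGlobal q.1) (chiLoc p S q)) ∧
    cupPairing p S φ inv (continuousH2Sπ S M x) (Hc1π S N z) =
      - ∑ q : ↥S, inv q (locClass p S q (evLoc S φ (x : Γ × Γ → M) (z.1.2 q) q)) := by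
  have hd : (d₂₃ (chiRep p)).hom (0 : Γ × Γ → chiRep p) =
      cup21 φ (x : Γ × Γ → M) z.1.1 := by
    rw [map_zero, hz, cup21_zero_right]
  have hy : IsLevelConstantS₂ S (0 : Γ × Γ → chiRep p) := isLevelConstantS₂_const S 0
  have hinv : ∀ (q : ↥S) (g : primeLocalGaloisGroup q.1),
      N.ρ (primeLocalToGlobal q.1 g) (z.1.2 q) = z.1.2 q := by
    intro q g
    have h1 := z.2.2.2 q g
    rw [hz] at h1
    exact (sub_eq_zero.1 h1.symm)
  have e : ∀ q : ↥S, locCochain p S φ (x : Γ × Γ → M) (z.1.2 q) 0 q =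
      -evLoc S φ (x : Γ × Γ → M) (z.1.2 q) q := by
    intro q
    funext gh
    show (0 : chiRep p) - φ ((x : Γ × Γ → M)
        (primeLocalToGlobal q.1 gh.1, primeLocalToGlobal q.1 gh.2))
        (N.ρ (primeLocalToGlobal q.1 gh.1 * primeLocalToGlobal q.1 gh.2) (z.1.2 q)) =
      -(φ ((x : Γ × Γ → M) (primeLocalToGlobal q.1 gh.1, primeLocalToGlobal q.1 gh.2))
        (z.1.2 q))
    rw [← map_mul, hinv, zero_sub]
  have hmem' : ∀ q : ↥S, evLoc S φ (x : Γ × Γ → M) (z.1.2 q) q ∈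
      levelCocycles₂ (primeLocalToGlobal q.1) (chiLoc p S q) := by
    intro q
    have := Submodule.neg_mem _ (locCochain_mem_of_primitive h.1 h.2.2.2 x z hy hd q)
    rwa [e, neg_neg] at this
  refine ⟨hmem', ?_⟩
  rw [cupPairing_eq h x z hy hd, ← Finset.sum_neg_distrib]
  refine Finset.sum_congr rfl fun q _ => ?_
  rw [e, ← map_neg, ← neg_one_smul (ZMod p) (evLoc S φ (x : Γ × Γ → M) (z.1.2 q) q),
    locClass_smul q _ (hmem' q), neg_one_smul]

end Pre

section Nat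

variable {p S}
variable {M₁ M₂ N₁ N₂ : Rep.{0, 0, 0} (ZMod p) Γ}
  {φ₁ : M₁ →ₗ[ZMod p] N₁ →ₗ[ZMod p] chiRep p} {φ₂ : M₂ →ₗ[ZMod p] N₂ →ₗ[ZMod p] chiRep p}

/-- **(NAT)** Naturality of the cup product pairing: for `f : M₁ ⟶ M₂` and `g : N₂ ⟶ N₁`
adjoint with respect to the pairings, `⟨f_* x, z⟩₂ = ⟨x, g_* z⟩₁`. -/
theorem cupPairing_nat {inv : LocalInv p S} (h₁ : CupReady p S φ₁ inv)
    (h₂ : CupReady p S φ₂ inv) (f : M₁ ⟶ M₂) (g : N₂ ⟶ N₁)
    (hadj : ∀ (a : M₁) (b : N₂), φ₂ (f.hom a) b = φ₁ a (g.hom b))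
    (x : continuousH2S S M₁) (z : Hc1 S N₂) :
    cupPairing p S φ₂ inv (H2SMap S f x) z = cupPairing p S φ₁ inv x (Hc1Map S g z) := by
  obtain ⟨x, rfl⟩ := Submodule.mkQ_surjective _ x
  obtain ⟨z, rfl⟩ := Hc1π_surjective S N₂ z
  obtain ⟨y, hy, hd⟩ := exists_primitive' h₁.1 h₁.2.1 h₁.2.2.2 x (Z1cMap S g z)
  have hd₂ : (d₂₃ (chiRep p)).hom y =
      cup21 φ₂ ((cocS₂Map S f x : ↥(levelCocyclesS₂ S M₂)) : Γ × Γ → M₂) z.1.1 := by
    rw [hd]
    funext γ
    show φ₁ ((x : Γ × Γ → M₁) (γ.1, γ.2.1)) (N₁.ρ (γ.1 * γ.2.1) (g.hom (z.1.1 γ.2.2))) =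
      φ₂ (f.hom ((x : Γ × Γ → M₁) (γ.1, γ.2.1))) (N₂.ρ (γ.1 * γ.2.1) (z.1.1 γ.2.2))
    rw [hadj, Rep.hom_comm_apply]
  have e₁ : cupPairing p S φ₂ inv (H2SMap S f (Submodule.mkQ _ x)) (Hc1π S N₂ z) =
      cupPairing p S φ₂ inv (continuousH2Sπ S M₂ (cocS₂Map S f x)) (Hc1π S N₂ z) := rfl
  have e₂ : cupPairing p S φ₁ inv (Submodule.mkQ _ x) (Hc1Map S g (Hc1π S N₂ z)) =
      cupPairing p S φ₁ inv (continuousH2Sπ S M₁ x) (Hc1π S N₁ (Z1cMap S g z)) := rfl
  rw [e₁, e₂, cupPairing_eq h₂ (cocS₂Map S f x) z hy hd₂,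
    cupPairing_eq h₁ x (Z1cMap S g z) hy hd]
  refine Finset.sum_congr rfl fun q _ => ?_
  congr 2
  funext gh
  show y (primeLocalToGlobal q.1 gh.1, primeLocalToGlobal q.1 gh.2) -
      φ₂ (f.hom ((x : Γ × Γ → M₁) (primeLocalToGlobal q.1 gh.1, primeLocalToGlobal q.1 gh.2)))
        (N₂.ρ (primeLocalToGlobal q.1 gh.1 * primeLocalToGlobal q.1 gh.2) (z.1.2 q)) =
    y (primeLocalToGlobal q.1 gh.1, primeLocalToGlobal q.1 gh.2) -
      φ₁ ((x : Γ × Γ → M₁) (primeLocalToGlobal q.1 gh.1, primeLocalToGlobal q.1 gh.2))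
        (N₁.ρ (primeLocalToGlobal q.1 gh.1 * primeLocalToGlobal q.1 gh.2) (g.hom (z.1.2 q)))
  rw [hadj, Rep.hom_comm_apply]

end Nat

end Fermat.Agent.S55.H62
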