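import Fermat.Agent.S55.H26.LocalTop
import Fermat.Agent.S55.H62.RPairing

/-!
# S55 / Route R (helper62): the family of local invariants, unpacked

`H26.IsLocalInvFamily p S ζ₀ inv` (helper26, `H26/LocalTop.lean`) is the hypothesis every consumer
of the term `inv : H62.LocalInv p S` should take: all `inv q` are the local invariants relative
to the images `padicEmbedding q ζ₀` of ONE global primitive `p`-th root of unity `ζ₀`.

This file unpacks it into the two shapes used downstream: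

* `exists_lcInv_of_family`: at every `q ∈ S` there is an invariant `inv₀` on level-constant
  cohomology with `H26.IsLocalInv` such that `inv q [c] = inv₀ [z]` whenever the lc-cocycle `z`
  has the values of the Prelude level cocycle `c`;
* `localInv_eq_of_family` (LI-P): for a finite Galois `L/ℚ_q` containing `ζ_q`, a Prelude level
  cocycle `u` with values in `𝔽_p(χ)` and a cocycle `c` of `Gal(L/ℚ_q)` in `Lˣ` with
  `c (g|L, h|L) = ζ_q ^ u (g, h)`:  `inv q [u] / p = inv_{L/ℚ_q} [c]`  in `ℚ/ℤ`.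
-/

set_option autoImplicit false

open CategoryTheory groupCohomology ExtCitation

noncomputable section

namespace Fermat.Agent.S55.H62

open Fermat.Agent.S55.H49

variable {p : ℕ} [Fact p.Prime] {S : Finset Nat.Primes}

/-- The invariant on level-constant cohomology behind `inv q`. -/
theorem exists_lcInv_of_family {ζ₀ : AlgebraicClosure ℚ} {inv : LocalInv p S}
    (hfam : H26.IsLocalInvFamily p S ζ₀ inv) (q : ↥S) :
    haveI : Fact ((q.1 : ℕ)).Prime := ⟨q.1.2⟩
    ∃ inv₀ : Hlc (H26.Dloc (q.1 : ℕ)) (H26.mu (H26.chiLoc p (q.1 : ℕ))) 2 →ₗ[ZMod p] ZMod p,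
      H26.IsLocalInv p (q.1 : ℕ) (padicEmbedding (q.1 : ℕ) ζ₀) inv₀ ∧
      ∀ (c : levelCocycles₂ (primeLocalToGlobal q.1) (chiLoc p S q))
        (z : cyc (lcComplex (H26.Dloc (q.1 : ℕ)) (H26.mu (H26.chiLoc p (q.1 : ℕ)))) 2),
        (∀ g : Fin 2 → primeLocalGaloisGroup q.1, lcVal z g = c.1 (g 0, g 1)) →
          inv q (continuousH2π (primeLocalToGlobal q.1) (chiLoc p S q) c) =
            inv₀ ((cls (lcComplex (H26.Dloc (q.1 : ℕ)) (H26.mu (H26.chiLoc p (q.1 : ℕ)))) 2).hom z) :=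
  hfam q

/-- **(LI-P)**: the invariants of the family are computed by C3's finite-level invariants on
correspondents relative to `padicEmbedding q ζ₀`. -/
theorem localInv_eq_of_family {ζ₀ : AlgebraicClosure ℚ} {inv : LocalInv p S}
    (hfam : H26.IsLocalInvFamily p S ζ₀ inv) (q : ↥S) :
    haveI : Fact ((q.1 : ℕ)).Prime := ⟨q.1.2⟩
    ∀ (L : IntermediateField ℚ_[(q.1 : ℕ)] (PadicAlgCl (q.1 : ℕ)))
      [FiniteDimensional ℚ_[(q.1 : ℕ)] L] [IsGalois ℚ_[(q.1 : ℕ)] L] (ζL : Lˣ),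
      ((ζL : L) : PadicAlgCl (q.1 : ℕ)) = padicEmbedding (q.1 : ℕ) ζ₀ →
      ∀ (u : levelCocycles₂ (primeLocalToGlobal q.1) (chiLoc p S q))
        (c : groupCohomology.cocycles₂ (Rep.ofAlgebraAutOnUnits ℚ_[(q.1 : ℕ)] L)),
        (∀ g h : primeLocalGaloisGroup q.1,
          c.1 (AlgEquiv.restrictNormalHom L g, AlgEquiv.restrictNormalHom L h) =
            H26.zetaPow p ζL (u.1 (g, h))) →
        H26.qzOfZMod p (inv q (continuousH2π (primeLocalToGlobal q.1) (chiLoc p S q) u)) =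
          H66.inv (q.1 : ℕ) L (groupCohomology.H2π (Rep.ofAlgebraAutOnUnits ℚ_[(q.1 : ℕ)] L) c) := by
  haveI : Fact ((q.1 : ℕ)).Prime := ⟨q.1.2⟩
  intro L _ _ ζL hζL u c hc
  obtain ⟨inv₀, hinv₀, hπ⟩ := exists_lcInv_of_family hfam q
  obtain ⟨e, he1, -⟩ := H99.bridgeLocal2All (ZMod p) (H26.GalQ (q.1 : ℕ))
    (localGaloisToGlobal (q.1 : ℕ)) (H26.mu (H26.chiLoc p (q.1 : ℕ)))
    (H26.smooth_mu_chiLoc p (q.1 : ℕ))
  obtain ⟨z, hz⟩ := he1 u
  rw [hπ u z hz]
  refine hinv₀ L ζL hζL _ _ ⟨z, c, rfl, rfl, fun g => ?_⟩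
  exact (hc (g 0) (g 1)).trans (congrArg (H26.zetaPow p ζL) (hz g).symm)

end Fermat.Agent.S55.H62

end
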