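import Fermat.Agent.S55.H62.CupLC

/-!
# The pairing of compactly supported cochains with cochains (package C2 of Program C)

`ccPairing : ccComplex A × lcComplex D B → ccComplex C`, `(a, b) ∪ c = (a ∪ c, (b_v ∪ res_v c)_v)`,
and `locPairing : locComplex A × lcComplex D B → locComplex C`, `(b_v) ∪ c = (b_v ∪ res_v c)_v`.
-/

set_option autoImplicit false

open CategoryTheory groupCohomology

noncomputable section

namespace Fermat.Agent.S55.H62

open Fermat.Agent.S55.H49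

variable {G : Type} [Group G] {k : Type} [CommRing k] {A B C : Rep.{0} k G}

section Generic

variable {X₁ X₂ Y Z₁ Z₂ : Type*} [AddCommGroup X₁] [Module k X₁] [AddCommGroup X₂] [Module k X₂]
  [AddCommGroup Y] [Module k Y] [AddCommGroup Z₁] [Module k Z₁] [AddCommGroup Z₂] [Module k Z₂]

/-- The bilinear map `((x₁, x₂), y) ↦ (P₁ x₁ y, P₂ x₂ y)`. -/
def prodPair (P₁ : X₁ →ₗ[k] Y →ₗ[k] Z₁) (P₂ : X₂ →ₗ[k] Y →ₗ[k] Z₂) :
    (X₁ × X₂) →ₗ[k] Y →ₗ[k] (Z₁ × Z₂) :=
  LinearMap.mk₂ k (fun x y => (P₁ x.1 y, P₂ x.2 y))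
    (fun x x' y => by simp)
    (fun c x y => by simp)
    (fun x y y' => by simp)
    (fun c x y => by simp)

@[simp]
theorem prodPair_apply (P₁ : X₁ →ₗ[k] Y →ₗ[k] Z₁) (P₂ : X₂ →ₗ[k] Y →ₗ[k] Z₂) (x : X₁ × X₂)
    (y : Y) : prodPair P₁ P₂ x y = (P₁ x.1 y, P₂ x.2 y) := rfl

/-- The bilinear map `(x, y) ↦ (P₁ x y, 0)`. -/
def inlPair (Z₂ : Type*) [AddCommGroup Z₂] [Module k Z₂] (P₁ : X₁ →ₗ[k] Y →ₗ[k] Z₁) :
    X₁ →ₗ[k] Y →ₗ[k] (Z₁ × Z₂) :=
  LinearMap.mk₂ k (fun x y => (P₁ x y, 0))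
    (fun x x' y => by simp)
    (fun c x y => by simp)
    (fun x y y' => by simp)
    (fun c x y => by simp)

@[simp]
theorem inlPair_apply (P₁ : X₁ →ₗ[k] Y →ₗ[k] Z₁) (x : X₁) (y : Y) :
    inlPair Z₂ P₁ x y = (P₁ x y, 0) := rfl

end Generic

section Res

variable {G' : Type} [Group G']

/-- A bilinear map, viewed as a bilinear map between the restricted representations. -/
def resPairing (ψ : G' →* G) (φ : A →ₗ[k] B →ₗ[k] C) :
    (Rep.res ψ A) →ₗ[k] (Rep.res ψ B) →ₗ[k] (Rep.res ψ C) := φ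

theorem resPairing_equivariant (ψ : G' →* G) {φ : A →ₗ[k] B →ₗ[k] C}
    (hφ : IsEquivariantPairing φ) : IsEquivariantPairing (resPairing ψ φ) :=
  fun g a b => hφ (ψ g) a b

/-- Restriction of level-constant cochains along a morphism of level data, as a linear map. -/
def lcResL {D' : LevelDatum G'} {D : LevelDatum G} (h : D'.Hom D) (M : Rep.{0} k G) (n : ℕ) :
    lcCochains D M n →ₗ[k] lcCochains D' (Rep.res h.φ M) n :=
  ((lcRes h M).f n).hom

theorem lcResL_coe {D' : LevelDatum G'} {D : LevelDatum G} (h : D'.Hom D) (M : Rep.{0} k G)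
    (n : ℕ) (f : lcCochains D M n) (x : Fin n → G') :
    (lcResL h M n f : (Fin n → G') → M) x = f.1 (fun i => h.φ (x i)) := rfl

end Res

section Local

variable {ι : Type} {Gv : ι → Type} [∀ v, Group (Gv v)]
  (Dv : ∀ v, LevelDatum (Gv v)) (D : LevelDatum G) (h : ∀ v, (Dv v).Hom D)

/-- `(b_v)_v ∪ c = (b_v ∪ res_v c)_v`. -/
def locCup (φ : A →ₗ[k] B →ₗ[k] C) (hφ : IsEquivariantPairing φ) (m n r : ℕ) :
    (∀ v, lcCochains (Dv v) (Rep.res (h v).φ A) m) →ₗ[k] lcCochains D B n →ₗ[k]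
      (∀ v, lcCochains (Dv v) (Rep.res (h v).φ C) r) :=
  LinearMap.mk₂ k
    (fun b c v => lcCup (Dv v) (resPairing (h v).φ φ) (resPairing_equivariant (h v).φ hφ) m n r
      (b v) (lcResL (h v) B n c))
    (fun b b' c => funext fun v => by simp)
    (fun t b c => funext fun v => by simp)
    (fun b c c' => funext fun v => by simp)
    (fun t b c => funext fun v => by simp)

theorem locCup_apply (φ : A →ₗ[k] B →ₗ[k] C) (hφ : IsEquivariantPairing φ) (m n r : ℕ)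
    (b : ∀ v, lcCochains (Dv v) (Rep.res (h v).φ A) m) (c : lcCochains D B n) (v : ι) :
    locCup Dv D h φ hφ m n r b c v =
      lcCup (Dv v) (resPairing (h v).φ φ) (resPairing_equivariant (h v).φ hφ) m n r
        (b v) (lcResL (h v) B n c) := rfl

/-- The cup product of a compactly supported cochain with a cochain:
`(a, b) ∪ c = (a ∪ c, (b_v ∪ res_v c)_v)`. -/
def ccCup (φ : A →ₗ[k] B →ₗ[k] C) (hφ : IsEquivariantPairing φ) :
    ∀ m n r : ℕ, (ccComplex Dv D h A).X m →ₗ[k] lcCochains D B n →ₗ[k] (ccComplex Dv D h C).X r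
  | 0, n, 0 => lcCup D φ hφ 0 n 0
  | 0, n, r + 1 =>
      inlPair (∀ v, lcCochains (Dv v) (Rep.res (h v).φ C) r) (lcCup D φ hφ 0 n (r + 1))
  | _ + 1, _, 0 => 0
  | m + 1, n, r + 1 => prodPair (lcCup D φ hφ (m + 1) n (r + 1)) (locCup Dv D h φ hφ m n r)

end Local

end Fermat.Agent.S55.H62
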