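import Fermat.Agent.S55.H62.CupCone
import Fermat.Agent.S55.H49.ConeApi

/-!
# The Leibniz rule for the cone pairing (package C2 of Program C)

`ccPairing Dv D h φ hφ : CPairing (ccComplex Dv D h A) (lcComplex D B) (ccComplex Dv D h C)`.
-/

set_option autoImplicit false

open CategoryTheory groupCohomology

noncomputable section

namespace Fermat.Agent.S55.H62

open Fermat.Agent.S55.H49

variable {G : Type} [Group G] {k : Type} [CommRing k] {A B C : Rep.{0} k G}

section Res

variable {G' : Type} [Group G']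

theorem tupleProd_map {M N : Type*} [Monoid M] [Monoid N] (ψ : M →* N) :
    ∀ {m : ℕ} (y : Fin m → M), tupleProd (fun i => ψ (y i)) = ψ (tupleProd y) := by
  intro m
  induction m with
  | zero =>
    intro y
    rw [tupleProd_zero, tupleProd_zero, map_one]
  | succ m ih =>
    intro y
    rw [tupleProd_succ, tupleProd_succ y, map_mul, ih]

/-- The cup product commutes with restriction along a group homomorphism. -/
theorem cup_res (ψ : G' →* G) (φ : A →ₗ[k] B →ₗ[k] C) (m n : ℕ) (f : (Fin m → G) → A)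
    (g : (Fin n → G) → B) (x : Fin (m + n) → G') :
    cup (A := Rep.res ψ A) (B := Rep.res ψ B) (C := Rep.res ψ C) (resPairing ψ φ) m n
        (fun y => f (fun i => ψ (y i))) (fun y => g (fun i => ψ (y i))) x =
      cup φ m n f g (fun i => ψ (x i)) := by
  rw [cup_apply, cup_apply]
  have e : tupleProd (tupleFst (m := m) (n := n) fun i => ψ (x i)) =
      ψ (tupleProd (tupleFst (m := m) (n := n) x)) :=
    tupleProd_map ψ (tupleFst (m := m) (n := n) x)
  rw [e]
  rfl

theorem cupR_res (ψ : G' →* G) (φ : A →ₗ[k] B →ₗ[k] C) (m n r : ℕ) (f : (Fin m → G) → A)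
    (g : (Fin n → G) → B) (x : Fin r → G') :
    cupR (A := Rep.res ψ A) (B := Rep.res ψ B) (C := Rep.res ψ C) (resPairing ψ φ) m n r
        (fun y => f (fun i => ψ (y i))) (fun y => g (fun i => ψ (y i))) x =
      cupR φ m n r f g (fun i => ψ (x i)) := by
  by_cases h : m + n = r
  · rw [cupR_of_eq _ h, cupR_of_eq _ h]
    exact cup_res ψ φ m n f g _
  · unfold cupR
    rw [dif_neg h, dif_neg h]
    rfl

variable {D' : LevelDatum G'} {D : LevelDatum G}

/-- Restriction commutes with the cup product of level-constant cochains. -/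
theorem lcResL_lcCup (h : D'.Hom D) (φ : A →ₗ[k] B →ₗ[k] C) (hφ : IsEquivariantPairing φ)
    (m n r : ℕ) (a : lcCochains D A m) (c : lcCochains D B n) :
    lcResL h C r (lcCup D φ hφ m n r a c) =
      lcCup D' (resPairing h.φ φ) (resPairing_equivariant h.φ hφ) m n r
        (lcResL h A m a) (lcResL h B n c) := by
  apply Subtype.ext
  funext x
  exact (cupR_res h.φ φ m n r a.1 c.1 x).symm

/-- Restriction commutes with the differential. -/
theorem lcResL_lcD (h : D'.Hom D) (M : Rep.{0} k G) (n : ℕ) (c : lcCochains D M n) :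
    lcResL h M (n + 1) (lcD D M n c) = lcD D' (Rep.res h.φ M) n (lcResL h M n c) := by
  have e := LinearMap.congr_fun (ModuleCat.hom_ext_iff.mp ((lcRes h M).comm n (n + 1))) c
  have e' : ((lcRes h M).f (n + 1)).hom (((lcComplex D M).d n (n + 1)).hom c) =
      ((lcComplex D' (Rep.res h.φ M)).d n (n + 1)).hom (((lcRes h M).f n).hom c) := e.symm
  rw [lcComplex_d_apply] at e'
  exact e'.trans (lcComplex_d_apply D' (Rep.res h.φ M) n _)

end Res

section Local

variable {ι : Type} {Gv : ι → Type} [∀ v, Group (Gv v)]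
  (Dv : ∀ v, LevelDatum (Gv v)) (D : LevelDatum G) (h : ∀ v, (Dv v).Hom D)

/-- The differential of the product of the local complexes, explicitly. -/
def locD (M : Rep.{0} k G) (n : ℕ) (b : ∀ v, lcCochains (Dv v) (Rep.res (h v).φ M) n) :
    ∀ v, lcCochains (Dv v) (Rep.res (h v).φ M) (n + 1) :=
  fun v => lcD (Dv v) (Rep.res (h v).φ M) n (b v)

/-- The total restriction map, explicitly. -/
def locResL (M : Rep.{0} k G) (n : ℕ) (a : lcCochains D M n) :
    ∀ v, lcCochains (Dv v) (Rep.res (h v).φ M) n :=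
  fun v => lcResL (h v) M n a

theorem locComplex_d_apply (M : Rep.{0} k G) (n : ℕ)
    (b : ∀ v, lcCochains (Dv v) (Rep.res (h v).φ M) n) :
    ((locComplex Dv D h M).d n (n + 1)).hom b = locD Dv D h M n b := by
  funext v
  exact (piComplex_d_apply (fun v => lcComplex (Dv v) (Rep.res (h v).φ M)) n b v).trans
    (lcComplex_d_apply (Dv v) (Rep.res (h v).φ M) n (b v))

theorem locMap_f_apply (M : Rep.{0} k G) (n : ℕ) (a : lcCochains D M n) :
    ((locMap Dv D h M).f n).hom a = locResL Dv D h M n a := rfl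

/-- The differential of the cone in degree `0`, explicitly. -/
theorem ccComplex_d_zero_apply (M : Rep.{0} k G) (x : lcCochains D M 0) :
    ((ccComplex Dv D h M).d 0 1).hom x =
      ((lcD D M 0 x, locResL Dv D h M 0 x) :
        lcCochains D M 1 × (∀ v, lcCochains (Dv v) (Rep.res (h v).φ M) 0)) := by
  refine (cocone_d_zero_apply (locMap Dv D h M) x).trans ?_
  exact Prod.ext (lcComplex_d_apply D M 0 x) rfl

/-- The differential of the cone in positive degrees, explicitly. -/
theorem ccComplex_d_succ_apply (M : Rep.{0} k G) (n : ℕ)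
    (x : lcCochains D M (n + 1) × (∀ v, lcCochains (Dv v) (Rep.res (h v).φ M) n)) :
    ((ccComplex Dv D h M).d (n + 1) (n + 1 + 1)).hom x =
      ((lcD D M (n + 1) x.1, locResL Dv D h M (n + 1) x.1 - locD Dv D h M n x.2) :
        lcCochains D M (n + 1 + 1) × (∀ v, lcCochains (Dv v) (Rep.res (h v).φ M) (n + 1))) := by
  refine (cocone_d_succ_apply (locMap Dv D h M) n x).trans ?_
  refine Prod.ext (lcComplex_d_apply D M (n + 1) x.1) ?_
  show ((locMap Dv D h M).f (n + 1)).hom x.1 - ((locComplex Dv D h M).d n (n + 1)).hom x.2 = _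
  rw [locComplex_d_apply]
  rfl

variable (φ : A →ₗ[k] B →ₗ[k] C) (hφ : IsEquivariantPairing φ)

/-- Restriction of a cup product is the local cup product of the restrictions. -/
theorem locResL_lcCup (m n r : ℕ) (a : lcCochains D A m) (c : lcCochains D B n) :
    locResL Dv D h C r (lcCup D φ hφ m n r a c) =
      locCup Dv D h φ hφ m n r (locResL Dv D h A m a) c := by
  funext v
  exact lcResL_lcCup (h v) φ hφ m n r a c

/-- The Leibniz rule for the local cup product. -/
theorem locD_locCup {m n r : ℕ} (hr : m + n = r)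
    (b : ∀ v, lcCochains (Dv v) (Rep.res (h v).φ A) m) (c : lcCochains D B n) :
    locD Dv D h C r (locCup Dv D h φ hφ m n r b c) =
      locCup Dv D h φ hφ (m + 1) n (r + 1) (locD Dv D h A m b) c +
        (-1 : k) ^ m • locCup Dv D h φ hφ m (n + 1) (r + 1) b (lcD D B n c) := by
  funext v
  have e := lcD_lcCup (Dv v) (resPairing (h v).φ φ) (resPairing_equivariant (h v).φ hφ) hr (b v)
    (lcResL (h v) B n c)
  rw [← lcResL_lcD] at e
  exact e

theorem ccCup_leibniz_zero_zero (n : ℕ) (hr : 0 + n = 0) (x : lcCochains D A 0)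
    (y : lcCochains D B n) :
    ((lcD D C 0 (lcCup D φ hφ 0 n 0 x y), locResL Dv D h C 0 (lcCup D φ hφ 0 n 0 x y)) :
        lcCochains D C 1 × (∀ v, lcCochains (Dv v) (Rep.res (h v).φ C) 0)) =
      prodPair (lcCup D φ hφ (0 + 1) n (0 + 1)) (locCup Dv D h φ hφ 0 n 0)
          (lcD D A 0 x, locResL Dv D h A 0 x) y +
        (-1 : k) ^ 0 • inlPair (∀ v, lcCochains (Dv v) (Rep.res (h v).φ C) 0)
          (lcCup D φ hφ 0 (n + 1) (0 + 1)) x (lcD D B n y) := by
  rw [prodPair_apply, inlPair_apply, lcD_lcCup D φ hφ hr, locResL_lcCup]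
  refine Prod.ext ?_ ?_
  · simp
  · simp

theorem ccCup_leibniz_zero_succ (n r : ℕ) (hr : 0 + n = r + 1) (x : lcCochains D A 0)
    (y : lcCochains D B n) :
    ((lcD D C (r + 1) (lcCup D φ hφ 0 n (r + 1) x y),
        locResL Dv D h C (r + 1) (lcCup D φ hφ 0 n (r + 1) x y) - locD Dv D h C r 0) :
        lcCochains D C (r + 1 + 1) × (∀ v, lcCochains (Dv v) (Rep.res (h v).φ C) (r + 1))) =
      prodPair (lcCup D φ hφ (0 + 1) n (r + 1 + 1)) (locCup Dv D h φ hφ 0 n (r + 1))
          (lcD D A 0 x, locResL Dv D h A 0 x) y +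
        (-1 : k) ^ 0 • inlPair (∀ v, lcCochains (Dv v) (Rep.res (h v).φ C) (r + 1))
          (lcCup D φ hφ 0 (n + 1) (r + 1 + 1)) x (lcD D B n y) := by
  rw [prodPair_apply, inlPair_apply, lcD_lcCup D φ hφ hr, locResL_lcCup]
  have e0 : locD Dv D h C r 0 = 0 := by
    funext v
    exact map_zero _
  rw [e0]
  refine Prod.ext ?_ ?_
  · simp
  · simp

theorem ccCup_leibniz_succ_succ (m n r : ℕ) (hr : m + n = r)
    (x : lcCochains D A (m + 1) × (∀ v, lcCochains (Dv v) (Rep.res (h v).φ A) m))
    (y : lcCochains D B n) :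
    ((lcD D C (r + 1) (lcCup D φ hφ (m + 1) n (r + 1) x.1 y),
        locResL Dv D h C (r + 1) (lcCup D φ hφ (m + 1) n (r + 1) x.1 y) -
          locD Dv D h C r (locCup Dv D h φ hφ m n r x.2 y)) :
        lcCochains D C (r + 1 + 1) × (∀ v, lcCochains (Dv v) (Rep.res (h v).φ C) (r + 1))) =
      prodPair (lcCup D φ hφ (m + 1 + 1) n (r + 1 + 1)) (locCup Dv D h φ hφ (m + 1) n (r + 1))
          (lcD D A (m + 1) x.1, locResL Dv D h A (m + 1) x.1 - locD Dv D h A m x.2) y +
        (-1 : k) ^ (m + 1) • prodPair (lcCup D φ hφ (m + 1) (n + 1) (r + 1 + 1))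
          (locCup Dv D h φ hφ m (n + 1) (r + 1)) x (lcD D B n y) := by
  rw [prodPair_apply, prodPair_apply, lcD_lcCup D φ hφ (by omega : m + 1 + n = r + 1),
    locResL_lcCup, locD_locCup Dv D h φ hφ hr]
  refine Prod.ext ?_ ?_
  · simp
  · simp only [Prod.snd_add, Prod.smul_snd, map_sub, LinearMap.sub_apply, pow_succ]
    module

/-- **The pairing of compactly supported cochains with cochains**:
`(a, b) ∪ c = (a ∪ c, (b_v ∪ res_v c)_v)`. -/
def ccPairing : CPairing (ccComplex Dv D h A) (lcComplex D B) (ccComplex Dv D h C) where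
  P m n r := ccCup Dv D h φ hφ m n r
  leibniz
    | 0, n, 0, hr, x, y =>
      (ccComplex_d_zero_apply Dv D h C (lcCup D φ hφ 0 n 0 x y)).trans
        ((ccCup_leibniz_zero_zero Dv D h φ hφ n hr x y).trans
          (congrArg₂ (fun a b => ccCup Dv D h φ hφ (0 + 1) n (0 + 1) a y +
              (-1 : k) ^ 0 • ccCup Dv D h φ hφ 0 (n + 1) (0 + 1) x b)
            (ccComplex_d_zero_apply Dv D h A x).symm (lcComplex_d_apply D B n y).symm))
    | 0, n, r + 1, hr, x, y =>
      (ccComplex_d_succ_apply Dv D h C r (lcCup D φ hφ 0 n (r + 1) x y, 0)).trans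
        ((ccCup_leibniz_zero_succ Dv D h φ hφ n r hr x y).trans
          (congrArg₂ (fun a b => ccCup Dv D h φ hφ (0 + 1) n (r + 1 + 1) a y +
              (-1 : k) ^ 0 • ccCup Dv D h φ hφ 0 (n + 1) (r + 1 + 1) x b)
            (ccComplex_d_zero_apply Dv D h A x).symm (lcComplex_d_apply D B n y).symm))
    | m + 1, n, 0, hr, _, _ => absurd hr (by omega)
    | m + 1, n, r + 1, hr, x, y =>
      (ccComplex_d_succ_apply Dv D h C r
          (lcCup D φ hφ (m + 1) n (r + 1) x.1 y, locCup Dv D h φ hφ m n r x.2 y)).trans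
        ((ccCup_leibniz_succ_succ Dv D h φ hφ m n r (by omega) x y).trans
          (congrArg₂ (fun a b => ccCup Dv D h φ hφ (m + 1 + 1) n (r + 1 + 1) a y +
              (-1 : k) ^ (m + 1) • ccCup Dv D h φ hφ (m + 1) (n + 1) (r + 1 + 1) x b)
            (ccComplex_d_succ_apply Dv D h A m x).symm (lcComplex_d_apply D B n y).symm))

end Local

end Fermat.Agent.S55.H62
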