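import Fermat.Agent.S55.H62.RInvFamily
import Fermat.Agent.S55.H33.RecQDefs

/-!
# S55 / Route R (helper62): (LI-P) in helper33's vocabulary

`H26.IsLocalInvFamily p S ζ₀ inv → ∀ q : ↥S, H33.IsLocalInvP p S q (padicEmbedding q ζ₀) (inv q)`:
the input of `H33.LocCmpStatement` (leaf (RECQ) of C9b) owed by the family of local invariants.
-/

set_option autoImplicit false

open CategoryTheory groupCohomology ExtCitation

noncomputable section

namespace Fermat.Agent.S55.H62

attribute [local instance] H88.factOfPrimes

variable {p : ℕ} [Fact p.Prime] {S : Finset Nat.Primes}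

/-- **(LI-P)**, verbatim in the shape of `H33/RecQDefs.lean`. -/
theorem isLocalInvP_of_family {ζ₀ : AlgebraicClosure ℚ} {inv : LocalInv p S}
    (hfam : H26.IsLocalInvFamily p S ζ₀ inv) (q : ↥S) :
    H33.IsLocalInvP p S q (padicEmbedding (q.1 : ℕ) ζ₀) (inv q) := by
  intro L _ _ ζL hζL u c hc
  exact localInv_eq_of_family hfam q L ζL hζL u c hc

end Fermat.Agent.S55.H62

end
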