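import Fermat.Agent.S55.H62.RPairingAdm

/-!
# Route R, package C2: formula (C) through the Prelude maps and the local criterion

* `locEvMap p S φ q m : H²(G_q, M) → H²(G_q, 𝔽_p(χ))`: the push-forward along `φ(·, m)` for a
  `G_q`-invariant `m : N` (Prelude's `continuousH2Map`; `0` if `φ(·, m)` is not `G_q`-equivariant);
* `cupPairing_loc0'` **(C')**: `⟨x, [(0, m)]⟩ = - ∑_q inv_q ((m_q)_* (loc_q x))` for every
  `x : continuousH2S S M`;
* `LocalInjAt p S inv M` **(L)**: a class `c ∈ H²(G_q, M)`, `q ∈ S`, with `inv_q (m_* c) = 0` for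
  all `G_q`-invariant `m ∈ M'` is zero;
* `rPackage_localCriterion`: the leaf `LocalCriterion` of the top chain for the concrete package
  `H43.rPackage S (rpairing p S inv)`, from (L) for all admissible `M` (`p` odd, `p ∈ S`).
-/

set_option autoImplicit false

open CategoryTheory groupCohomology ExtCitation

noncomputable section

namespace Fermat.Agent.S55.H62

open Fermat.Agent.S55.H70 Fermat.Agent.S55.H12 Fermat.Agent.S55.H43

local notation "Γ" => (AlgebraicClosure ℚ ≃ₐ[ℚ] AlgebraicClosure ℚ)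

variable (p : ℕ) [Fact p.Prime] (S : Finset Nat.Primes)

section Generic

variable {M N : Rep.{0, 0, 0} (ZMod p) Γ} (φ : M →ₗ[ZMod p] N →ₗ[ZMod p] chiRep p)

/-- The push-forward `H²(G_q, M) → H²(G_q, 𝔽_p(χ))` along `a ↦ φ a m`, for `m : N` such that this
map is `G_q`-equivariant (`0` otherwise). -/
def locEvMap (q : ↥S) (m : N) :
    continuousH2 (primeLocalToGlobal q.1) (Rep.res (primeLocalToGlobal q.1) M) →ₗ[ZMod p]
      H2loc p S q :=
  open Classical in
  if h : ∀ (g : primeLocalGaloisGroup q.1) (a : M),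
      φ (M.ρ (primeLocalToGlobal q.1 g) a) m = (chiRep p).ρ (primeLocalToGlobal q.1 g) (φ a m) then
    continuousH2Map (rH := primeLocalToGlobal q.1) (rG := primeLocalToGlobal q.1)
      (A := Rep.res (primeLocalToGlobal q.1) M) (B := chiLoc p S q)
      (MonoidHom.id _) (fun _ => rfl) (φ.flip m) h
  else 0

variable {p S φ}

/-- `φ(·, m)` is `G_q`-equivariant for a `G_q`-invariant `m`. -/
theorem flip_equivariant (hφ : IsEquivariantPairing φ) (q : ↥S) {m : N}
    (hm : ∀ g : primeLocalGaloisGroup q.1, N.ρ (primeLocalToGlobal q.1 g) m = m)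
    (g : primeLocalGaloisGroup q.1) (a : M) :
    φ (M.ρ (primeLocalToGlobal q.1 g) a) m =
      (chiRep p).ρ (primeLocalToGlobal q.1 g) (φ a m) := by
  have h := hφ (primeLocalToGlobal q.1 g) a m
  rw [hm g] at h
  exact h

/-- `locEvMap` on the class of a cocycle. -/
theorem locEvMap_π (q : ↥S) {m : N}
    (h : ∀ (g : primeLocalGaloisGroup q.1) (a : M),
      φ (M.ρ (primeLocalToGlobal q.1 g) a) m = (chiRep p).ρ (primeLocalToGlobal q.1 g) (φ a m))
    (c : ↥(levelCocycles₂ (primeLocalToGlobal q.1) (Rep.res (primeLocalToGlobal q.1) M))) :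
    locEvMap p S φ q m (continuousH2π _ _ c) =
      locClass p S q (fun gh => φ ((c : _ × _ → M) gh) m) := by
  have hmem : (fun gh : primeLocalGaloisGroup q.1 × primeLocalGaloisGroup q.1 =>
      φ ((c : _ × _ → M) gh) m) ∈ levelCocycles₂ (primeLocalToGlobal q.1) (chiLoc p S q) :=
    (levelCocycles₂Map (rH := primeLocalToGlobal q.1) (rG := primeLocalToGlobal q.1)
      (A := Rep.res (primeLocalToGlobal q.1) M) (B := chiLoc p S q)
      (MonoidHom.id _) (fun _ => rfl) (φ.flip m) h c).2
  rw [locEvMap, dif_pos h, locClass_of_mem q hmem]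
  rfl

theorem locEvMap_zero (q : ↥S) : locEvMap p S φ q (0 : N) = 0 := by
  have h : ∀ (g : primeLocalGaloisGroup q.1) (a : M),
      φ (M.ρ (primeLocalToGlobal q.1 g) a) (0 : N) =
        (chiRep p).ρ (primeLocalToGlobal q.1 g) (φ a 0) := by
    intro g a
    rw [map_zero, map_zero, map_zero]
  refine LinearMap.ext fun x => ?_
  obtain ⟨c, rfl⟩ := Submodule.mkQ_surjective _ x
  have e := locEvMap_π (p := p) (S := S) (φ := φ) q h c
  have e0 : (fun gh : primeLocalGaloisGroup q.1 × primeLocalGaloisGroup q.1 =>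
      φ ((c : _ × _ → M) gh) (0 : N)) = 0 := by
    funext gh
    exact map_zero _
  rw [e0, locClass_zero] at e
  exact e

/-- **(C')** The pairing on the classes `(0, (m_q))`, through the Prelude's localisation maps:
`⟨x, [(0, m)]⟩ = - ∑_q inv_q ((m_q)_* (loc_q x))`. -/
theorem cupPairing_loc0' {inv : LocalInv p S} (h : CupReady p S φ inv)
    (x : continuousH2S S M) (z : ↥(Z1c S N)) (hz : z.1.1 = 0) :
    cupPairing p S φ inv x (Hc1π S N z) =
      - ∑ q : ↥S, inv q (locEvMap p S φ q (z.1.2 q)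
        (locRes₂S S M (primeLocalToGlobal q.1) x)) := by
  obtain ⟨x, rfl⟩ := Submodule.mkQ_surjective _ x
  have h1 := (cupPairing_loc0 h x z hz).2
  have e : cupPairing p S φ inv (Submodule.mkQ _ x) (Hc1π S N z) =
      cupPairing p S φ inv (continuousH2Sπ S M x) (Hc1π S N z) := rfl
  rw [e, h1]
  congr 1
  refine Finset.sum_congr rfl fun q _ => ?_
  have hinv : ∀ g : primeLocalGaloisGroup q.1,
      N.ρ (primeLocalToGlobal q.1 g) (z.1.2 q) = z.1.2 q := by
    intro g
    have h1 := z.2.2.2 q g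
    rw [hz] at h1
    exact (sub_eq_zero.1 h1.symm)
  obtain ⟨c', hc', hc'v⟩ := Fermat.Agent.S55.H49.locRes₂S_π S M (primeLocalToGlobal q.1) x
  have e2 : locRes₂S S M (primeLocalToGlobal q.1) (Submodule.mkQ _ x) =
      continuousH2π _ _ c' := hc'
  rw [e2, locEvMap_π q (flip_equivariant h.1 q hinv) c']
  congr 2
  funext gh
  show φ ((x : Γ × Γ → M) (primeLocalToGlobal q.1 gh.1, primeLocalToGlobal q.1 gh.2)) (z.1.2 q) =
    φ ((c' : _ × _ → M) gh) (z.1.2 q)
  rw [← hc'v gh.1 gh.2]

end Generic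

/-- **(L)** Local injectivity at the primes of `S` for the module `M`: a class of `H²(G_q, M)`
which is killed by `inv_q ∘ m_*` for every `G_q`-invariant `m ∈ M'` is zero. -/
def LocalInjAt (inv : LocalInv p S) (M : Rep.{0, 0, 0} (ZMod p) Γ) : Prop :=
  ∀ (q : ↥S) (c : continuousH2 (primeLocalToGlobal q.1) (Rep.res (primeLocalToGlobal q.1) M)),
    (∀ m : D p M, (∀ g : primeLocalGaloisGroup q.1,
        (D p M).ρ (primeLocalToGlobal q.1 g) m = m) →
      inv q (locEvMap p S (evPairing p M) q m c) = 0) → c = 0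

variable {p S}

/-- **(LC)** The local criterion for the concrete package, from local injectivity (L):
`x ∈ sha₂ S M ↔ x ⊥ loc0 (D p M)`. -/
theorem rPackage_localCriterion {inv : LocalInv p S} (hp2 : p ≠ 2) (hpS : pPrime p ∈ S)
    (hH3 : H3Statement p S) (hREC : RECStatement p S inv)
    (hL : ∀ M : Rep.{0, 0, 0} (ZMod p) Γ, IsAdm p S M → LocalInjAt p S inv M) :
    (rPackage S (rpairing p S inv)).LocalCriterion := by
  intro M hM x
  have hready : CupReady p S (evPairing p M) inv :=
    cupReady_of_isAdm hH3 hREC (dualAdmStatement_h70 S hpS M hM)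
  rw [mem_sha₂_iff_of_ne_two S hp2 M x]
  constructor
  · intro hx f hf
    obtain ⟨z, hz, rfl⟩ := (mem_loc0_iff S (D p M) f).1 hf
    show cupPairing p S (evPairing p M) inv x (Hc1π S (D p M) z) = 0
    rw [cupPairing_loc0' hready x z hz, neg_eq_zero]
    refine Finset.sum_eq_zero fun q _ => ?_
    rw [hx q, map_zero, map_zero]
  · intro hx q
    refine hL M hM q _ fun m hm => ?_
    classical
    have hzmem : ((0 : Γ → D p M), (Pi.single q m : ↥S → D p M)) ∈ Z1c S (D p M) := by
      refine ⟨Submodule.zero_mem _, isLevelConstantS₁_const S 0, fun q' g => ?_⟩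
      show (0 : D p M) = (D p M).ρ (primeLocalToGlobal q'.1 g) ((Pi.single q m : ↥S → D p M) q') -
        (Pi.single q m : ↥S → D p M) q'
      by_cases hq : q' = q
      · subst hq
        rw [Pi.single_eq_same, hm g, sub_self]
      · rw [Pi.single_eq_of_ne hq, map_zero, sub_self]
    have h0 := hx (Hc1π S (D p M) ⟨_, hzmem⟩)
      ((mem_loc0_iff S (D p M) _).2 ⟨⟨_, hzmem⟩, rfl, rfl⟩)
    have h1 : cupPairing p S (evPairing p M) inv x (Hc1π S (D p M) ⟨_, hzmem⟩) = 0 := h0
    rw [cupPairing_loc0' hready x ⟨_, hzmem⟩ rfl, neg_eq_zero, Finset.sum_eq_single q] at h1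
    · have h2 : inv q (locEvMap p S (evPairing p M) q ((Pi.single q m : ↥S → D p M) q)
          (locRes₂S S M (primeLocalToGlobal q.1) x)) = 0 := h1
      rw [Pi.single_eq_same] at h2
      exact h2
    · intro q' _ hq'
      show inv q' (locEvMap p S (evPairing p M) q' ((Pi.single q m : ↥S → D p M) q')
          (locRes₂S S M (primeLocalToGlobal q'.1) x)) = 0
      rw [Pi.single_eq_of_ne hq', locEvMap_zero, LinearMap.zero_apply, map_zero]
    · intro hq
      exact absurd (Finset.mem_univ q) hq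

end Fermat.Agent.S55.H62
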