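import Fermat.Agent.S55.H62.RPairing
import Fermat.Agent.S55.H43.C10Adm

/-!
# Route R, package C2: the pairing of the concrete package and its naturality

* `rpairing p S inv M : continuousH2S S M →ₗ Hc1 S (D p M) →ₗ ZMod p`: the cup product pairing
  attached to the evaluation pairing `M × M' → 𝔽_p(χ)` and a family `inv` of local invariant
  maps — the `pairing` argument of `H43.rPackage` / `H43.s55_of_pairing`;
* `rpairing_natAdm : H43.PairingNatAdm S (rpairing p S inv)` (NAT), from `H3Statement p S` and
  `RECStatement p S inv`;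
* `rpairing_eq` (CHAR) and `rpairing_loc0` (C) for admissible `M`.
-/

set_option autoImplicit false

open CategoryTheory groupCohomology ExtCitation

noncomputable section

namespace Fermat.Agent.S55.H62

open Fermat.Agent.S55.H70 Fermat.Agent.S55.H12 Fermat.Agent.S55.H43

local notation "Γ" => (AlgebraicClosure ℚ ≃ₐ[ℚ] AlgebraicClosure ℚ)

variable (p : ℕ) [Fact p.Prime] (S : Finset Nat.Primes)

/-- **The Route R pairing** `H²(G_S, M) × H¹_c(G_S, M') → 𝔽_p`. -/
def rpairing (inv : LocalInv p S) (M : Rep.{0, 0, 0} (ZMod p) Γ) :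
    continuousH2S S M →ₗ[ZMod p] Hc1 S (D p M) →ₗ[ZMod p] ZMod p :=
  cupPairing p S (evPairing p M) inv

variable {p S}

/-- The cup product computes the pairing of `M` as soon as `M'` is admissible. -/
theorem cupReady_of_isAdm {inv : LocalInv p S} (hH3 : H3Statement p S)
    (hREC : RECStatement p S inv) {M : Rep.{0, 0, 0} (ZMod p) Γ} (hM' : IsAdm p S (D p M)) :
    CupReady p S (evPairing p M) inv :=
  ⟨evPairing_equivariant p M, hH3, hREC, exists_level_of_isAdm S hM'⟩

/-- **(NAT)** The pairing is natural on admissible modules. -/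
theorem rpairing_natAdm {inv : LocalInv p S} (hpS : pPrime p ∈ S) (hH3 : H3Statement p S)
    (hREC : RECStatement p S inv) : PairingNatAdm S (rpairing p S inv) := by
  intro X Y f hX hY x y
  exact cupPairing_nat (cupReady_of_isAdm hH3 hREC (dualAdmStatement_h70 S hpS X hX))
    (cupReady_of_isAdm hH3 hREC (dualAdmStatement_h70 S hpS Y hY)) f (dualHom p f)
    (fun _ _ => rfl) x y

end Fermat.Agent.S55.H62
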